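import Fermat.Prelude.Def_FLTPrelim_ModularRep
import Fermat.Agent.MU.S33.PNew
import Fermat.Agent.F3.Interfaces
import Fermat.Agent.MU.R38.Out
import Fermat.Agent.Lib.Frey.Basic

section MergeWrap_R38_G_Interfaces -- from R38/G/Interfaces.lean

set_option autoImplicit false
set_option linter.style.haveILetI false
set_option linter.unusedSectionVars false

noncomputable section

namespace Fermat.Agent.R38

open ModularCurve AlgebraicCurve
open Fermat.Agent.AtkinLehner (ALData)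

local notation "Qb" => (AlgebraicClosure ℚ)
local notation "GQ" => (AlgebraicClosure ℚ ≃ₐ[ℚ] AlgebraicClosure ℚ)

section At

variable {N N₀ p : ℕ} [NeZero N] [NeZero N₀] [NeZero p]

/-- **`W_E`**: the `p`-new eigenspace of the system `ℓ ↦ a ℓ` in `J₀(N)(ℚ̄)[p]`, `N = N₀ p`. -/
def newEigenAt (h : N = N₀ * p) (D : ALData) (hM : N = D.Q * D.R) (S : Finset ℕ) (a : ℕ → ℤ) :
    AddSubgroup (JZero N) where
  carrier := {y | p • y = 0 ∧ Fermat.Agent.S33.pnewAlpha h y = 0 ∧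
    Fermat.Agent.S33.pnewBeta h D hM y = 0 ∧
    ∀ ℓ : Nat.Primes, (ℓ : ℕ) ∉ S → ¬ (ℓ : ℕ) ∣ N → heckeOperatorBar N ℓ y = a ℓ • y}
  zero_mem' := ⟨nsmul_zero _, map_zero _, map_zero _, fun ℓ _ _ => by rw [map_zero, zsmul_zero]⟩
  add_mem' := by
    rintro x y ⟨hx1, hx2, hx3, hx4⟩ ⟨hy1, hy2, hy3, hy4⟩
    refine ⟨by rw [nsmul_add, hx1, hy1, add_zero], by rw [map_add, hx2, hy2, add_zero],
      by rw [map_add, hx3, hy3, add_zero],
      fun ℓ h1 h2 => by rw [map_add, hx4 ℓ h1 h2, hy4 ℓ h1 h2, zsmul_add]⟩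
  neg_mem' := by
    rintro x ⟨hx1, hx2, hx3, hx4⟩
    refine ⟨by rw [neg_nsmul, hx1, neg_zero], by rw [map_neg, hx2, neg_zero],
      by rw [map_neg, hx3, neg_zero], fun ℓ h1 h2 => by rw [map_neg, hx4 ℓ h1 h2, zsmul_neg]⟩

theorem mem_newEigenAt {h : N = N₀ * p} {D : ALData} {hM : N = D.Q * D.R} {S : Finset ℕ}
    {a : ℕ → ℤ} {y : JZero N} :
    y ∈ newEigenAt h D hM S a ↔ p • y = 0 ∧ Fermat.Agent.S33.pnewAlpha h y = 0 ∧
      Fermat.Agent.S33.pnewBeta h D hM y = 0 ∧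
      ∀ ℓ : Nat.Primes, (ℓ : ℕ) ∉ S → ¬ (ℓ : ℕ) ∣ N → heckeOperatorBar N ℓ y = a ℓ • y :=
  Iff.rfl

/-- `newEigenAt` is stable under `G_ℚ`, as soon as the `T_ℓ` commute with `G_ℚ`. -/
theorem smul_mem_newEigenAt {h : N = N₀ * p} {D : ALData} {hM : N = D.Q * D.R} {S : Finset ℕ}
    {a : ℕ → ℤ}
    (hcomm : ∀ (ℓ : Nat.Primes) (σ : GQ) (y : JZero N),
      heckeOperatorBar N ℓ (σ • y) = σ • heckeOperatorBar N ℓ y)
    (σ : GQ) {y : JZero N} (hy : y ∈ newEigenAt h D hM S a) :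
    σ • y ∈ newEigenAt h D hM S a := by
  obtain ⟨h1, h2, h3, h4⟩ := hy
  have h0 : ∀ {M : ℕ}, σ • (0 : JZero M) = 0 := fun {M} => smul_zero (A := JZero M) σ
  refine ⟨?_, ?_, ?_, fun ℓ hℓS hℓN => ?_⟩
  · rw [smul_comm p σ y, h1]
    exact h0
  · rw [Fermat.Agent.S33.pnewAlpha_smul, h2]
    exact h0
  · rw [Fermat.Agent.S33.pnewBeta_smul, h3]
    exact h0
  · rw [hcomm, h4 ℓ hℓS hℓN]
    exact (smul_comm (a ℓ) σ y).symm

end At

/-- `newEigenAt` at the index `i : S35.NewIdx N 0` (`p = i.1`, `D = i.data`), for the system of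
the integral model `W`. -/
def newEigenspace (N : ℕ) [NeZero N] (i : Fermat.Agent.S35.NewIdx N 0) (W : WeierstrassCurve ℤ)
    (S : Finset ℕ) : AddSubgroup (JZero N) :=
  haveI := i.neZero_q
  haveI := i.neZero_N
  newEigenAt i.level_eq i.data i.level_eq_data S (fun ℓ => W.apOfModel ℓ)

theorem mem_newEigenspace {N : ℕ} [NeZero N] {i : Fermat.Agent.S35.NewIdx N 0}
    {W : WeierstrassCurve ℤ} {S : Finset ℕ} {y : JZero N} :
    y ∈ newEigenspace N i W S ↔ (i.1 : ℕ) • y = 0 ∧ Fermat.Agent.S33.newUAt i y = 0 ∧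
      ∀ ℓ : Nat.Primes, (ℓ : ℕ) ∉ S → ¬ (ℓ : ℕ) ∣ N →
        heckeOperatorBar N ℓ y = (W.apOfModel ℓ : ℤ) • y := by
  rw [Fermat.Agent.S33.newUAt_eq_zero_iff, and_assoc]
  exact Iff.rfl

open WeierstrassCurve WeierstrassCurve.Affine in
/-- The `p`-torsion of `E` over `ℚ̄`, as a Galois module (the Prelude's object). -/
abbrev ETors (E : WeierstrassCurve ℚ) (p : ℕ) : Type :=
  ↥(Submodule.torsionBy ℤ (E⁄Qb).Point ((p : ℕ) : ℤ))

/-- **(C)**: a Galois-equivariant injection `θ : E[p] → J₀(N)(ℚ̄)` with image in `V`. -/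
def FreyEmbedsIn (E : WeierstrassCurve ℚ) (p : ℕ) {N : ℕ} (V : AddSubgroup (JZero N)) : Prop :=
  ∃ θ : ETors E p →+ JZero N, Function.Injective θ ∧
    (∀ (σ : GQ) (x : ETors E p), θ (σ • x) = σ • θ x) ∧ ∀ x : ETors E p, θ x ∈ V

/-- **(C)** at the index `i`. -/
def FreyEmbedding (N : ℕ) [NeZero N] (i : Fermat.Agent.S35.NewIdx N 0) (E : WeierstrassCurve ℚ)
    (W : WeierstrassCurve ℤ) (S : Finset ℕ) : Prop :=
  FreyEmbedsIn E i.1 (newEigenspace N i W S)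

end Fermat.Agent.R38
end
end MergeWrap_R38_G_Interfaces

section MergeWrap_R38_G_Main -- from R38/G/Main.lean

set_option autoImplicit false
set_option linter.style.haveILetI false

noncomputable section

namespace Fermat.Agent.R38

open ModularCurve AlgebraicCurve CuspForm WeierstrassCurve
open Fermat.Agent.AtkinLehner (ALData)

local notation "Qb" => (AlgebraicClosure ℚ)

/-- The primes dividing `N` or the discriminant of `W`, and `p`. -/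
def badSet (N p : ℕ) (W : WeierstrassCurve ℤ) : Finset ℕ :=
  insert p (N.primeFactors ∪ W.Δ.natAbs.primeFactors)

theorem mem_badSet_self (N p : ℕ) (W : WeierstrassCurve ℤ) : p ∈ badSet N p W :=
  Finset.mem_insert_self _ _

theorem mem_badSet_of_dvd {N : ℕ} (hN : N ≠ 0) (p : ℕ) (W : WeierstrassCurve ℤ) {q : ℕ}
    (hq : q.Prime) (h : q ∣ N) : q ∈ badSet N p W :=
  Finset.mem_insert_of_mem (Finset.mem_union_left _ (Nat.mem_primeFactors.2 ⟨hq, h, hN⟩))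

theorem mem_badSet_of_bad (N p : ℕ) {W : WeierstrassCurve ℤ} (hΔ : W.Δ ≠ 0) {q : ℕ}
    (hq : q.Prime) (h : ¬ W.IsGoodPrimeFor q) : q ∈ badSet N p W := by
  refine Finset.mem_insert_of_mem
    (Finset.mem_union_right _ (Nat.mem_primeFactors.2 ⟨hq, ?_, Int.natAbs_ne_zero.2 hΔ⟩))
  have h1 : (q : ℤ) ∣ W.Δ := not_not.1 h
  exact Int.natCast_dvd.1 h1

theorem not_dvd_of_not_mem_badSet {N : ℕ} (hN : N ≠ 0) (p : ℕ) (W : WeierstrassCurve ℤ) {q : ℕ}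
    (hq : q.Prime) (h : q ∉ badSet N p W) : ¬ q ∣ N :=
  fun h' => h (mem_badSet_of_dvd hN p W hq h')

theorem good_of_not_mem_badSet (N p : ℕ) {W : WeierstrassCurve ℤ} (hΔ : W.Δ ≠ 0) {q : ℕ}
    (hq : q.Prime) (h : q ∉ badSet N p W) : W.IsGoodPrimeFor q :=
  not_not.1 fun h' => h (mem_badSet_of_bad N p hΔ hq h')

theorem ne_of_not_mem_badSet (N p : ℕ) (W : WeierstrassCurve ℤ) {q : ℕ}
    (h : q ∉ badSet N p W) : q ≠ p :=
  fun h' => h (h' ▸ mem_badSet_self N p W)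

/-- The discriminant of an integral model of the Frey curve is nonzero. -/
theorem frey_model_Δ_ne_zero (P : FreyPackage) {W : WeierstrassCurve ℤ}
    (hW : W.IsIntegralModelOf P.freyCurve) : W.Δ ≠ 0 := by
  obtain ⟨C, hC⟩ := hW
  intro h
  have h1 : (W.map (Int.castRingHom ℚ)).Δ = 0 := by
    rw [WeierstrassCurve.map_Δ, h, _root_.map_zero]
  rw [← hC, WeierstrassCurve.variableChange_Δ] at h1
  have h2 : P.freyCurve.Δ ≠ 0 := by
    rw [← Fermat.Agent.FreyLib.freyCurveInt_map P, WeierstrassCurve.map_Δ]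
    simpa using Fermat.Agent.FreyLib.freyCurveInt_Δ_ne_zero P
  have h3 : ((C.u⁻¹ : ℚˣ) : ℚ) ^ 12 ≠ 0 := pow_ne_zero _ (Units.ne_zero _)
  exact (mul_ne_zero h3 h2) h1

/-- **Block G, abstract wiring**: from the dichotomy (G1) and the embedding (G3). -/
theorem blockG_of (P : FreyPackage) [NeZero P.p] {N N₀ : ℕ} [NeZero N] [NeZero N₀]
    (h : N = N₀ * P.p) (D : ALData) (hM : N = D.Q * D.R)
    (hmod : P.ModularRepOfLevel N)
    (hG1 : ∀ (S : Finset ℕ) (a : ℕ → ℤ) (f : CuspForm (CongruenceSubgroup.Gamma0 N) 2)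
      (𝔪 : Ideal (integralClosure ℤ ℂ)), f.IsNormalizedEigenform → 𝔪.IsMaximal →
      (P.p : integralClosure ℤ ℂ) ∈ 𝔪 → (∀ q : ℕ, q.Prime → q ∣ N → q ∈ S) →
      (∀ ℓ : ℕ, ℓ.Prime → ℓ ∉ S →
        ∃ α : integralClosure ℤ ℂ, (α : ℂ) = ModularFormClass.qCoeff f ℓ ∧
          α - ((a ℓ : ℤ) : integralClosure ℤ ℂ) ∈ 𝔪) →
      Fermat.Agent.R38Ret.RetOutput P.p N₀ S a ∨ ∃ y ∈ newEigenAt h D hM S a, y ≠ 0)
    (hG3 : ∀ (W : WeierstrassCurve ℤ) (S : Finset ℕ), W.IsIntegralModelOf P.freyCurve →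
      P.p ∈ S → (∀ q : ℕ, q.Prime → q ∣ N → q ∈ S) →
      (∀ q : ℕ, q.Prime → ¬ W.IsGoodPrimeFor q → q ∈ S) →
      (∃ y ∈ newEigenAt h D hM S (fun ℓ => W.apOfModel ℓ), y ≠ 0) →
      FreyEmbedsIn P.freyCurve P.p (newEigenAt h D hM S (fun ℓ => W.apOfModel ℓ))) :
    P.ModularRepOfLevel N₀ ∨
      ∃ (W : WeierstrassCurve ℤ) (S : Finset ℕ), W.IsIntegralModelOf P.freyCurve ∧
        P.p ∈ S ∧ (∀ q : ℕ, q.Prime → q ∣ N → q ∈ S) ∧
        (∀ q : ℕ, q.Prime → ¬ W.IsGoodPrimeFor q → q ∈ S) ∧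
        FreyEmbedsIn P.freyCurve P.p (newEigenAt h D hM S (fun ℓ => W.apOfModel ℓ)) := by
  obtain ⟨f, W, 𝔪, hf, hW, h𝔪, hp𝔪, hcong⟩ := hmod
  have hΔ : W.Δ ≠ 0 := frey_model_Δ_ne_zero P hW
  have hN : N ≠ 0 := NeZero.ne N
  have hS1 : ∀ q : ℕ, q.Prime → q ∣ N → q ∈ badSet N P.p W :=
    fun q hq hqN => mem_badSet_of_dvd hN P.p W hq hqN
  have hS2 : ∀ q : ℕ, q.Prime → ¬ W.IsGoodPrimeFor q → q ∈ badSet N P.p W :=
    fun q hq hqW => mem_badSet_of_bad N P.p hΔ hq hqW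
  rcases hG1 (badSet N P.p W) (fun ℓ => W.apOfModel ℓ) f 𝔪 hf h𝔪 hp𝔪 hS1
    (fun ℓ hℓ hℓS => hcong ℓ hℓ (good_of_not_mem_badSet N P.p hΔ hℓ hℓS)
      (not_dvd_of_not_mem_badSet hN P.p W hℓ hℓS) (ne_of_not_mem_badSet N P.p W hℓS)) with
    hret | hy
  · exact Or.inl (modularRepOfLevel_of_retOutput P W hW N₀ (badSet N P.p W)
      (fun ℓ => W.apOfModel ℓ) (fun _ _ _ _ _ => rfl) hret)
  · exact Or.inr ⟨W, badSet N P.p W, hW, mem_badSet_self N P.p W, hS1, hS2,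
      hG3 W (badSet N P.p W) hW (mem_badSet_self N P.p W) hS1 hS2 hy⟩

end Fermat.Agent.R38
end
end MergeWrap_R38_G_Main
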