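import Mathlib
import Fermat.Prelude.Def_GaloisRep_Residual
import Fermat.Prelude.Def_GaloisRep_ComplexConjugation
import Fermat.Prelude.Def_GaloisRep_LocalConditions
import Fermat.Prelude.Def_GaloisRep_Adic
import Fermat.Agent.Lib.Cyclo.ModCharGlobal
import Fermat.Agent.MU.Lib.FrobTrace.DetCycloEll
import Fermat.Agent.MU.Lib.Torsion.Card
import Fermat.Agent.MU.E.S12.Quot.VcSurj
import Fermat.Agent.F3.Interfaces
import Fermat.Agent.MU.Lib.FrobTrace.MainAll
import Fermat.Agent.MU.Lib.FrobDensity.Main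
import Fermat.Agent.F3.OpenStab
import Fermat.Agent.F3.Galois.HeckeComm
import Fermat.Agent.MU.F3.TorsFin.Final
import Fermat.Agent.MU.Lib.GaussInt.FrobPowFinal
import Fermat.Agent.MU.Lib.GaussInt.KeyAux
import Fermat.Agent.MU.Lib.HeckeInputs.Qbar
import Fermat.Agent.MU.R38.G.Main
import Fermat.Agent.MU.R38.Spine

section MergeWrap_R38_G_BLR -- from R38/G/BLR.lean

set_option autoImplicit false
set_option linter.unusedSimpArgs false

namespace Fermat.Agent.R38

open Matrix

section Mat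

variable {k : Type*} [Field k]

lemma blr_m1 : (!![1, 0; 0, 0] : Matrix (Fin 2) (Fin 2) k) * !![1, 0; 0, 0] = !![1, 0; 0, 0] := by
  ext i j; fin_cases i <;> fin_cases j <;> simp [Matrix.mul_apply, Fin.sum_univ_two]

lemma blr_m2 : (!![0, 1; 0, 0] : Matrix (Fin 2) (Fin 2) k) * !![1, 0; 0, 0] = 0 := by
  ext i j; fin_cases i <;> fin_cases j <;> simp [Matrix.mul_apply, Fin.sum_univ_two]

lemma blr_m3 : (!![1, 0; 0, 0] : Matrix (Fin 2) (Fin 2) k) * !![0, 0; 1, 0] = 0 := by
  ext i j; fin_cases i <;> fin_cases j <;> simp [Matrix.mul_apply, Fin.sum_univ_two]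

lemma blr_m4 : (!![0, 1; 0, 0] : Matrix (Fin 2) (Fin 2) k) * !![0, 0; 1, 0] = !![1, 0; 0, 0] := by
  ext i j; fin_cases i <;> fin_cases j <;> simp [Matrix.mul_apply, Fin.sum_univ_two]

lemma blr_m5 : (!![1, 0; 0, 0] : Matrix (Fin 2) (Fin 2) k)
    + !![0, 0; 1, 0] * !![1, 0; 0, 0] * !![0, 1; 0, 0] = 1 := by
  ext i j; fin_cases i <;> fin_cases j <;> simp [Matrix.mul_apply, Fin.sum_univ_two]

lemma blr_m6 (M : Matrix (Fin 2) (Fin 2) k) : M * !![1, 0; 0, 0]
    = M 0 0 • (!![1, 0; 0, 0] : Matrix (Fin 2) (Fin 2) k)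
      + M 1 0 • ((!![0, 0; 1, 0] : Matrix (Fin 2) (Fin 2) k) * !![1, 0; 0, 0]) := by
  ext i j; fin_cases i <;> fin_cases j <;> simp [Matrix.mul_apply, Fin.sum_univ_two]

lemma blr_m7 (M : Matrix (Fin 2) (Fin 2) k) :
    M * ((!![0, 0; 1, 0] : Matrix (Fin 2) (Fin 2) k) * !![1, 0; 0, 0])
    = M 0 1 • (!![1, 0; 0, 0] : Matrix (Fin 2) (Fin 2) k)
      + M 1 1 • ((!![0, 0; 1, 0] : Matrix (Fin 2) (Fin 2) k) * !![1, 0; 0, 0]) := by
  ext i j; fin_cases i <;> fin_cases j <;> simp [Matrix.mul_apply, Fin.sum_univ_two]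

lemma blr_t1 : (!![0, 1; 0, 0] : Matrix (Fin 2) (Fin 2) k).trace = 0 := by
  simp [Matrix.trace_fin_two]

lemma blr_t2 : (!![0, 0; 1, 0] : Matrix (Fin 2) (Fin 2) k).trace = 0 := by
  simp [Matrix.trace_fin_two]

lemma blr_t3 : ((!![0, 1; 0, 0] : Matrix (Fin 2) (Fin 2) k) * !![0, 0; 1, 0]).trace = 1 := by
  rw [blr_m4]
  simp [Matrix.trace_fin_two]

lemma blr_t4 : ((!![0, 1; 0, 0] : Matrix (Fin 2) (Fin 2) k) * !![0, 0; 1, 0]
    * ((!![0, 1; 0, 0] : Matrix (Fin 2) (Fin 2) k) * !![0, 0; 1, 0])).trace = 1 := by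
  rw [blr_m4, blr_m1]
  simp [Matrix.trace_fin_two]

end Mat

section Diag

variable {k : Type*} [Field k]

lemma blr_d1 (a b : k) (hab : a ≠ b) :
    (!![1, 0; 0, 0] : Matrix (Fin 2) (Fin 2) k) =
      (a - b)⁻¹ • ((!![a, 0; 0, b] : Matrix (Fin 2) (Fin 2) k) - b • 1) := by
  have h : a - b ≠ 0 := sub_ne_zero.mpr hab
  ext i j; fin_cases i <;> fin_cases j <;> simp [h]

lemma blr_d2 (a b : k) (hab : a ≠ b) :
    (!![0, 0; 0, 1] : Matrix (Fin 2) (Fin 2) k) =
      (b - a)⁻¹ • ((!![a, 0; 0, b] : Matrix (Fin 2) (Fin 2) k) - a • 1) := by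
  have h : b - a ≠ 0 := sub_ne_zero.mpr (Ne.symm hab)
  ext i j; fin_cases i <;> fin_cases j <;> simp [h]

lemma blr_d3' (x00 x01 x10 x11 : k) (hX : x10 ≠ 0) :
    (!![0, 0; 1, 0] : Matrix (Fin 2) (Fin 2) k) =
      x10⁻¹ • ((!![0, 0; 0, 1] : Matrix (Fin 2) (Fin 2) k) * !![x00, x01; x10, x11]
        * !![1, 0; 0, 0]) := by
  rw [Matrix.mul_fin_two, Matrix.mul_fin_two]
  ext i j; fin_cases i <;> fin_cases j <;> simp [hX]

lemma blr_d3 (X : Matrix (Fin 2) (Fin 2) k) (hX : X 1 0 ≠ 0) :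
    (!![0, 0; 1, 0] : Matrix (Fin 2) (Fin 2) k) =
      (X 1 0)⁻¹ • ((!![0, 0; 0, 1] : Matrix (Fin 2) (Fin 2) k) * X * !![1, 0; 0, 0]) := by
  have h := blr_d3' (X 0 0) (X 0 1) (X 1 0) (X 1 1) hX
  rwa [← Matrix.eta_fin_two X] at h

lemma blr_d4' (x00 x01 x10 x11 : k) (hY : x01 ≠ 0) :
    (!![0, 1; 0, 0] : Matrix (Fin 2) (Fin 2) k) =
      x01⁻¹ • ((!![1, 0; 0, 0] : Matrix (Fin 2) (Fin 2) k) * !![x00, x01; x10, x11]
        * !![0, 0; 0, 1]) := by
  rw [Matrix.mul_fin_two, Matrix.mul_fin_two]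
  ext i j; fin_cases i <;> fin_cases j <;> simp [hY]

lemma blr_d4 (Y : Matrix (Fin 2) (Fin 2) k) (hY : Y 0 1 ≠ 0) :
    (!![0, 1; 0, 0] : Matrix (Fin 2) (Fin 2) k) =
      (Y 0 1)⁻¹ • ((!![1, 0; 0, 0] : Matrix (Fin 2) (Fin 2) k) * Y * !![0, 0; 0, 1]) := by
  have h := blr_d4' (Y 0 0) (Y 0 1) (Y 1 0) (Y 1 1) hY
  rwa [← Matrix.eta_fin_two Y] at h

lemma blr_d5 (M : Matrix (Fin 2) (Fin 2) k) :
    M = M 0 0 • (!![1, 0; 0, 0] : Matrix (Fin 2) (Fin 2) k) + M 0 1 • !![0, 1; 0, 0]
      + M 1 0 • !![0, 0; 1, 0] + M 1 1 • !![0, 0; 0, 1] := by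
  ext i j; fin_cases i <;> fin_cases j <;> simp

/-- A subalgebra of `M₂(k)` containing `diag(a, b)`, `a ≠ b`, a matrix with nonzero lower left
entry and a matrix with nonzero upper right entry is everything. -/
lemma blr_subalgebra_eq_top (R : Subalgebra k (Matrix (Fin 2) (Fin 2) k)) (a b : k) (hab : a ≠ b)
    (hD : (!![a, 0; 0, b] : Matrix (Fin 2) (Fin 2) k) ∈ R)
    (X : Matrix (Fin 2) (Fin 2) k) (hXR : X ∈ R) (hX : X 1 0 ≠ 0)
    (Y : Matrix (Fin 2) (Fin 2) k) (hYR : Y ∈ R) (hY : Y 0 1 ≠ 0) : R = ⊤ := by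
  have h11 : (!![1, 0; 0, 0] : Matrix (Fin 2) (Fin 2) k) ∈ R := by
    rw [blr_d1 a b hab]
    exact R.smul_mem (R.sub_mem hD (R.smul_mem R.one_mem _)) _
  have h22 : (!![0, 0; 0, 1] : Matrix (Fin 2) (Fin 2) k) ∈ R := by
    rw [blr_d2 a b hab]
    exact R.smul_mem (R.sub_mem hD (R.smul_mem R.one_mem _)) _
  have h21 : (!![0, 0; 1, 0] : Matrix (Fin 2) (Fin 2) k) ∈ R := by
    rw [blr_d3 X hX]
    exact R.smul_mem (R.mul_mem (R.mul_mem h22 hXR) h11) _
  have h12 : (!![0, 1; 0, 0] : Matrix (Fin 2) (Fin 2) k) ∈ R := by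
    rw [blr_d4 Y hY]
    exact R.smul_mem (R.mul_mem (R.mul_mem h11 hYR) h22) _
  rw [eq_top_iff]
  intro M _
  rw [blr_d5 M]
  exact R.add_mem (R.add_mem (R.add_mem (R.smul_mem h11 _) (R.smul_mem h12 _))
    (R.smul_mem h21 _)) (R.smul_mem h22 _)

end Diag

section Polar

variable {k : Type*} [Field k] {A : Type*} [Ring A] [Algebra k A]

/-- Polarised Cayley–Hamilton from the quadratic relations of `G`, `H` and `G * H`. -/
lemma blr_polar_aux (G H : A) (tg th tgh dg dh : k)
    (hg : G * G = tg • G - dg • (1 : A)) (hh : H * H = th • H - dh • (1 : A))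
    (hgh : (G * H) * (G * H) = tgh • (G * H) - (dg * dh) • (1 : A))
    (hinv : ∃ Z : A, Z * (G * H) = 1) :
    G * H + H * G = tg • H + th • G + (tgh - tg * th) • (1 : A) := by
  obtain ⟨Z, hZ⟩ := hinv
  have key : (G * H) * (G * H + H * G - tg • H - th • G - (tgh - tg * th) • (1 : A)) = 0 := by
    have e2 : (G * H) * (H * G) = th • (G * H * G) - (dh * tg) • G + (dh * dg) • (1 : A) := by
      have : (G * H) * (H * G) = G * (H * H) * G := by noncomm_ring
      rw [this, hh, mul_sub, sub_mul, mul_smul_comm, smul_mul_assoc, mul_smul_comm, mul_one,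
        smul_mul_assoc, hg, smul_sub, smul_smul, smul_smul]
      module
    have e3 : (G * H) * (tg • H) = (tg * th) • (G * H) - (tg * dh) • G := by
      rw [mul_smul_comm, mul_assoc, hh, mul_sub, mul_smul_comm, mul_smul_comm, mul_one, smul_sub,
        smul_smul, smul_smul]
    have e4 : (G * H) * (th • G) = th • (G * H * G) := by
      rw [mul_smul_comm]
    have e5 : (G * H) * ((tgh - tg * th) • (1 : A)) = (tgh - tg * th) • (G * H) := by
      rw [mul_smul_comm, mul_one]
    rw [mul_sub, mul_sub, mul_sub, mul_add, hgh, e2, e3, e4, e5]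
    module
  have h := congrArg (fun X => Z * X) key
  simp only [mul_zero] at h
  rw [← mul_assoc, hZ, one_mul] at h
  have h' := sub_eq_zero.mp h
  rw [sub_sub, sub_eq_iff_eq_add] at h'
  rw [h']
  module

end Polar

section Ext

variable {k : Type*} [Field k] {Γ : Type*} [Group Γ] {A : Type*} [Ring A] [Algebra k A]

/-- The polarised identity extends from the group to the group algebra. -/
lemma blr_polar_ext (π : MonoidAlgebra k Γ →ₐ[k] A) (τ : MonoidAlgebra k Γ →ₗ[k] k)
    (h : ∀ g h : Γ, π (.of k Γ g) * π (.of k Γ h) + π (.of k Γ h) * π (.of k Γ g) =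
        τ (.of k Γ g) • π (.of k Γ h) + τ (.of k Γ h) • π (.of k Γ g)
          + (τ (.of k Γ g * .of k Γ h) - τ (.of k Γ g) * τ (.of k Γ h)) • (1 : A))
    (x y : MonoidAlgebra k Γ) :
    π x * π y + π y * π x = τ x • π y + τ y • π x + (τ (x * y) - τ x * τ y) • (1 : A) := by
  induction x using MonoidAlgebra.induction_on with
  | of g =>
    induction y using MonoidAlgebra.induction_on with
    | of h' => exact h g h'
    | add y y' hy hy' =>
      rw [map_add, map_add, mul_add, add_mul, mul_add, map_add]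
      linear_combination (norm := module) hy + hy'
    | smul r y hy =>
      rw [map_smul, map_smul, mul_smul_comm, smul_mul_assoc, mul_smul_comm, map_smul,
        smul_eq_mul, smul_eq_mul]
      linear_combination (norm := module) r • hy
  | add x x' hx hx' =>
    rw [map_add, map_add, add_mul, mul_add, add_mul, map_add]
    linear_combination (norm := module) hx + hx'
  | smul r x hx =>
    rw [map_smul, map_smul, smul_mul_assoc, mul_smul_comm, smul_mul_assoc, map_smul,
      smul_eq_mul, smul_eq_mul]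
    linear_combination (norm := module) r • hx

end Ext

section Main

variable {k : Type*} [Field k] {Γ : Type*} [Group Γ] {V : Type*} [AddCommGroup V] [Module k V]

/-- The linear extension of `ρ` to the group algebra. -/
noncomputable def blrRho (ρ : Γ →* GL (Fin 2) k) :
    MonoidAlgebra k Γ →ₐ[k] Matrix (Fin 2) (Fin 2) k :=
  MonoidAlgebra.lift k (Matrix (Fin 2) (Fin 2) k) Γ
    ((Units.coeHom (Matrix (Fin 2) (Fin 2) k)).comp ρ)

lemma blrRho_of (ρ : Γ →* GL (Fin 2) k) (g : Γ) :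
    blrRho ρ (.of k Γ g) = (ρ g : Matrix (Fin 2) (Fin 2) k) := by
  simp [blrRho]

/-- The trace form on the group algebra. -/
noncomputable def blrTr (ρ : Γ →* GL (Fin 2) k) : MonoidAlgebra k Γ →ₗ[k] k :=
  (Matrix.traceLinearMap (Fin 2) k k).comp (blrRho ρ).toLinearMap

lemma blrTr_apply (ρ : Γ →* GL (Fin 2) k) (x : MonoidAlgebra k Γ) :
    blrTr ρ x = (blrRho ρ x).trace := rfl

/-- The span condition gives the surjectivity of `k[Γ] → M₂(k)`. -/
lemma blrRho_surjective (ρ : Γ →* GL (Fin 2) k)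
    (hspan : Submodule.span k (Set.range fun γ : Γ => (ρ γ : Matrix (Fin 2) (Fin 2) k)) = ⊤) :
    Function.Surjective (blrRho ρ) := by
  intro m
  have hm : m ∈ Submodule.span k (Set.range fun γ : Γ => (ρ γ : Matrix (Fin 2) (Fin 2) k)) := by
    rw [hspan]
    exact Submodule.mem_top
  induction hm using Submodule.span_induction with
  | mem x hx =>
    obtain ⟨γ, rfl⟩ := hx
    exact ⟨.of k Γ γ, blrRho_of ρ γ⟩
  | zero => exact ⟨0, map_zero _⟩
  | add x y _ _ hx hy =>
    obtain ⟨a, rfl⟩ := hx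
    obtain ⟨b, rfl⟩ := hy
    exact ⟨a + b, map_add _ _ _⟩
  | smul r x _ hx =>
    obtain ⟨a, rfl⟩ := hx
    exact ⟨r • a, map_smul _ _ _⟩

variable (ρ : Γ →* GL (Fin 2) k) (σ : Representation k Γ V)

/-- **The polarised identity on the group algebra.** -/
theorem blr_polar
    (hCH : ∀ γ : Γ, σ γ * σ γ - (ρ γ : Matrix (Fin 2) (Fin 2) k).trace • σ γ
      + (ρ γ : Matrix (Fin 2) (Fin 2) k).det • (1 : Module.End k V) = 0)
    (x y : MonoidAlgebra k Γ) :
    σ.asAlgebraHom x * σ.asAlgebraHom y + σ.asAlgebraHom y * σ.asAlgebraHom x =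
      blrTr ρ x • σ.asAlgebraHom y + blrTr ρ y • σ.asAlgebraHom x
        + (blrTr ρ (x * y) - blrTr ρ x * blrTr ρ y) • (1 : Module.End k V) := by
  have hq : ∀ γ : Γ, σ γ * σ γ = (ρ γ : Matrix (Fin 2) (Fin 2) k).trace • σ γ
      - (ρ γ : Matrix (Fin 2) (Fin 2) k).det • (1 : Module.End k V) := by
    intro γ
    have h := hCH γ
    linear_combination (norm := module) h
  refine blr_polar_ext σ.asAlgebraHom (blrTr ρ) (fun g h => ?_) x y
  have e1 : ∀ γ : Γ, blrTr ρ (.of k Γ γ) = (ρ γ : Matrix (Fin 2) (Fin 2) k).trace := fun γ => by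
    rw [blrTr_apply, blrRho_of]
  have e2 : blrTr ρ (.of k Γ g * .of k Γ h) = (ρ (g * h) : Matrix (Fin 2) (Fin 2) k).trace := by
    rw [← map_mul, e1]
  rw [Representation.asAlgebraHom_of, Representation.asAlgebraHom_of, e1, e1, e2]
  refine blr_polar_aux (σ g) (σ h) _ _ _ _ _ (hq g) (hq h) ?_ ⟨σ (g * h)⁻¹, ?_⟩
  · have h1 := hq (g * h)
    have h2 : (ρ (g * h) : Matrix (Fin 2) (Fin 2) k).det =
        (ρ g : Matrix (Fin 2) (Fin 2) k).det * (ρ h : Matrix (Fin 2) (Fin 2) k).det := by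
      rw [map_mul ρ g h, Units.val_mul, Matrix.det_mul]
    rw [map_mul σ g h, h2] at h1
    exact h1
  · rw [← map_mul σ g h, ← map_mul, inv_mul_cancel, map_one]

/-- **The kernel of `k[Γ] → M₂(k)` acts as `0`.** -/
theorem blr_ker
    (hsurj : Function.Surjective (blrRho ρ))
    (hCH : ∀ γ : Γ, σ γ * σ γ - (ρ γ : Matrix (Fin 2) (Fin 2) k).trace • σ γ
      + (ρ γ : Matrix (Fin 2) (Fin 2) k).det • (1 : Module.End k V) = 0)
    (x : MonoidAlgebra k Γ) (hx : blrRho ρ x = 0) : σ.asAlgebraHom x = 0 := by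
  obtain ⟨u, hu⟩ := hsurj !![0, 1; 0, 0]
  obtain ⟨v, hv⟩ := hsurj !![0, 0; 1, 0]
  set X := σ.asAlgebraHom x with hX
  set U := σ.asAlgebraHom u with hU
  set W := σ.asAlgebraHom v with hW
  -- `X Y + Y X = τ(y) X`
  have star : ∀ y : MonoidAlgebra k Γ,
      X * σ.asAlgebraHom y + σ.asAlgebraHom y * X = blrTr ρ y • X := by
    intro y
    have h := blr_polar ρ σ hCH x y
    have h1 : blrTr ρ x = 0 := by rw [blrTr_apply, hx, Matrix.trace_zero]
    have h2 : blrTr ρ (x * y) = 0 := by rw [blrTr_apply, map_mul, hx, zero_mul, Matrix.trace_zero]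
    rw [h1, h2] at h
    rw [h]
    module
  have tu : blrTr ρ u = 0 := by
    rw [blrTr_apply, hu]
    exact blr_t1
  have tv : blrTr ρ v = 0 := by
    rw [blrTr_apply, hv]
    exact blr_t2
  have tuv : blrTr ρ (u * v) = 1 := by
    rw [blrTr_apply, map_mul, hu, hv]
    exact blr_t3
  have tuvuv : blrTr ρ (u * v * (u * v)) = 1 := by
    rw [blrTr_apply, map_mul, map_mul, hu, hv]
    exact blr_t4
  have s1 : X * U + U * X = 0 := by
    have := star u
    rwa [tu, zero_smul] at this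
  have s2 : X * W + W * X = 0 := by
    have := star v
    rwa [tv, zero_smul] at this
  have s3 : X * (U * W) + (U * W) * X = X := by
    have := star (u * v)
    rwa [tuv, one_smul, map_mul] at this
  have c1 : X * (U * W) = (U * W) * X := by
    have e1 : X * U = -(U * X) := eq_neg_of_add_eq_zero_left s1
    have e2 : X * W = -(W * X) := eq_neg_of_add_eq_zero_left s2
    calc X * (U * W) = (X * U) * W := by rw [mul_assoc]
      _ = -(U * (X * W)) := by rw [e1, neg_mul, mul_assoc]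
      _ = (U * W) * X := by rw [e2, mul_neg, neg_neg, mul_assoc]
  -- `2 P X = X`
  have s4 : (2 : k) • ((U * W) * X) = X := by
    rw [c1] at s3
    rw [two_smul]
    exact s3
  by_cases h2 : (2 : k) = 0
  · rw [← s4, h2, zero_smul]
  · -- `P² = P`
    have hP : (U * W) * (U * W) = U * W := by
      have h := blr_polar ρ σ hCH (u * v) (u * v)
      rw [tuv, tuvuv, map_mul] at h
      have h3 : (2 : k) • ((U * W) * (U * W)) = (2 : k) • (U * W) := by
        rw [two_smul, two_smul]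
        rw [h]
        module
      exact smul_right_injective _ h2 h3
    have h5 : (U * W) * X = 0 := by
      have h6 : (U * W) * ((2 : k) • ((U * W) * X)) = (U * W) * X := by rw [s4]
      rw [mul_smul_comm, ← mul_assoc, hP] at h6
      have h7 : (2 : k) • ((U * W) * X) - (U * W) * X = 0 := sub_eq_zero.mpr h6
      have h8 : (2 : k) • ((U * W) * X) - (U * W) * X = (U * W) * X := by
        rw [two_smul, add_sub_cancel_right]
      rw [h8] at h7
      exact h7
    rw [← s4, h5, smul_zero]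

/-- Elements of the group algebra with the same image in `M₂(k)` act in the same way. -/
lemma blr_congr
    (hsurj : Function.Surjective (blrRho ρ))
    (hCH : ∀ γ : Γ, σ γ * σ γ - (ρ γ : Matrix (Fin 2) (Fin 2) k).trace • σ γ
      + (ρ γ : Matrix (Fin 2) (Fin 2) k).det • (1 : Module.End k V) = 0)
    {x y : MonoidAlgebra k Γ} (h : blrRho ρ x = blrRho ρ y) :
    σ.asAlgebraHom x = σ.asAlgebraHom y := by
  have h1 := blr_ker ρ σ hsurj hCH (x - y) (by rw [map_sub, h, sub_self])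
  rw [map_sub] at h1
  exact sub_eq_zero.mp h1

/-- **Boston–Lenstra–Ribet**: `ρ` embeds in `V`. -/
theorem blr_embed [Nontrivial V]
    (hsurj : Function.Surjective (blrRho ρ))
    (hCH : ∀ γ : Γ, σ γ * σ γ - (ρ γ : Matrix (Fin 2) (Fin 2) k).trace • σ γ
      + (ρ γ : Matrix (Fin 2) (Fin 2) k).det • (1 : Module.End k V) = 0) :
    ∃ φ : (Fin 2 → k) →ₗ[k] V, Function.Injective φ ∧
      ∀ (γ : Γ) (c : Fin 2 → k),
        φ ((ρ γ : Matrix (Fin 2) (Fin 2) k).mulVec c) = σ γ (φ c) := by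
  obtain ⟨e, he⟩ := hsurj !![1, 0; 0, 0]
  obtain ⟨u, hu⟩ := hsurj !![0, 1; 0, 0]
  obtain ⟨v, hv⟩ := hsurj !![0, 0; 1, 0]
  set E := σ.asAlgebraHom e with hE
  set U := σ.asAlgebraHom u with hU
  set W := σ.asAlgebraHom v with hW
  have cg := fun {x y : MonoidAlgebra k Γ} (h : blrRho ρ x = blrRho ρ y) =>
    blr_congr ρ σ hsurj hCH h
  have r1 : E * E = E := by
    have := cg (x := e * e) (y := e) (by
      rw [map_mul, he]
      exact blr_m1)
    rwa [map_mul] at this
  have r2 : U * E = 0 := by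
    have := cg (x := u * e) (y := 0) (by
      rw [map_mul, he, hu, map_zero]
      exact blr_m2)
    rwa [map_mul, map_zero] at this
  have r3 : E * W = 0 := by
    have := cg (x := e * v) (y := 0) (by
      rw [map_mul, he, hv, map_zero]
      exact blr_m3)
    rwa [map_mul, map_zero] at this
  have r4 : U * W = E := by
    have := cg (x := u * v) (y := e) (by
      rw [map_mul, he, hu, hv]
      exact blr_m4)
    rwa [map_mul] at this
  have r5 : E + W * E * U = 1 := by
    have := cg (x := e + v * e * u) (y := 1) (by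
      rw [map_add, map_mul, map_mul, he, hu, hv, map_one]
      exact blr_m5)
    rwa [map_add, map_mul, map_mul, map_one] at this
  have r6 : ∀ γ : Γ, σ γ * E = (ρ γ : Matrix (Fin 2) (Fin 2) k) 0 0 • E
      + (ρ γ : Matrix (Fin 2) (Fin 2) k) 1 0 • (W * E) := by
    intro γ
    have := cg (x := .of k Γ γ * e)
      (y := (ρ γ : Matrix (Fin 2) (Fin 2) k) 0 0 • e
        + (ρ γ : Matrix (Fin 2) (Fin 2) k) 1 0 • (v * e)) (by
      rw [map_mul, map_add, map_smul, map_smul, map_mul, he, hv, blrRho_of]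
      exact blr_m6 _)
    rwa [map_mul, map_add, map_smul, map_smul, map_mul, Representation.asAlgebraHom_of] at this
  have r7 : ∀ γ : Γ, σ γ * (W * E) = (ρ γ : Matrix (Fin 2) (Fin 2) k) 0 1 • E
      + (ρ γ : Matrix (Fin 2) (Fin 2) k) 1 1 • (W * E) := by
    intro γ
    have := cg (x := .of k Γ γ * (v * e))
      (y := (ρ γ : Matrix (Fin 2) (Fin 2) k) 0 1 • e
        + (ρ γ : Matrix (Fin 2) (Fin 2) k) 1 1 • (v * e)) (by
      rw [map_mul, map_mul, map_add, map_smul, map_smul, map_mul, he, hv, blrRho_of]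
      exact blr_m7 _)
    rwa [map_mul, map_add, map_smul, map_smul, map_mul, Representation.asAlgebraHom_of] at this
  -- a vector `w = E w ≠ 0`
  have hE0 : E ≠ 0 := by
    intro h0
    rw [h0, mul_zero, zero_mul, add_zero] at r5
    obtain ⟨a, ha⟩ := exists_ne (0 : V)
    apply ha
    have := congrArg (fun f : Module.End k V => f a) r5
    simpa using this.symm
  obtain ⟨w₀, hw₀⟩ : ∃ w₀ : V, E w₀ ≠ 0 := by
    by_contra hno
    push Not at hno
    exact hE0 (LinearMap.ext hno)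
  set w : V := E w₀ with hw
  have hEw : E w = w := by
    rw [hw, ← Module.End.mul_apply, r1]
  have hUw : U w = 0 := by
    rw [← hEw, ← Module.End.mul_apply, r2]
    rfl
  have hUWw : U (W w) = w := by
    rw [← Module.End.mul_apply, r4, hEw]
  have hEWw : E (W w) = 0 := by
    rw [← Module.End.mul_apply, r3]
    rfl
  have hγw : ∀ γ : Γ, σ γ w = (ρ γ : Matrix (Fin 2) (Fin 2) k) 0 0 • w
      + (ρ γ : Matrix (Fin 2) (Fin 2) k) 1 0 • W w := by
    intro γ
    have := congrArg (fun f : Module.End k V => f w) (r6 γ)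
    simp only [Module.End.mul_apply, LinearMap.add_apply, LinearMap.smul_apply, hEw] at this
    exact this
  have hγWw : ∀ γ : Γ, σ γ (W w) = (ρ γ : Matrix (Fin 2) (Fin 2) k) 0 1 • w
      + (ρ γ : Matrix (Fin 2) (Fin 2) k) 1 1 • W w := by
    intro γ
    have := congrArg (fun f : Module.End k V => f w) (r7 γ)
    simp only [Module.End.mul_apply, LinearMap.add_apply, LinearMap.smul_apply, hEw] at this
    exact this
  -- the embedding
  let φ : (Fin 2 → k) →ₗ[k] V :=
    (LinearMap.proj 0).smulRight w + (LinearMap.proj 1).smulRight (W w)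
  have hφ : ∀ c : Fin 2 → k, φ c = c 0 • w + c 1 • W w := fun c => rfl
  refine ⟨φ, ?_, ?_⟩
  · rw [injective_iff_map_eq_zero]
    intro c hc
    rw [hφ] at hc
    have h0 : c 0 = 0 := by
      have := congrArg (fun a : V => E a) hc
      simp only [map_add, map_smul, hEw, hEWw, smul_zero, add_zero, map_zero] at this
      rcases smul_eq_zero.mp this with h | h
      · exact h
      · exact absurd h hw₀
    have h1 : c 1 = 0 := by
      have := congrArg (fun a : V => U a) hc
      simp only [map_add, map_smul, hUw, hUWw, smul_zero, zero_add, map_zero] at this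
      rcases smul_eq_zero.mp this with h | h
      · exact h
      · exact absurd h hw₀
    funext i
    fin_cases i
    · exact h0
    · exact h1
  · intro γ c
    rw [hφ, hφ, map_add, map_smul, map_smul, hγw, hγWw]
    simp only [Matrix.mulVec, dotProduct, Fin.sum_univ_two]
    module

/-- **Boston–Lenstra–Ribet**, span form. -/
theorem blr_embed_of_span [Nontrivial V]
    (hspan : Submodule.span k (Set.range fun γ : Γ => (ρ γ : Matrix (Fin 2) (Fin 2) k)) = ⊤)
    (hCH : ∀ γ : Γ, σ γ * σ γ - (ρ γ : Matrix (Fin 2) (Fin 2) k).trace • σ γ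
      + (ρ γ : Matrix (Fin 2) (Fin 2) k).det • (1 : Module.End k V) = 0) :
    ∃ φ : (Fin 2 → k) →ₗ[k] V, Function.Injective φ ∧
      ∀ (γ : Γ) (c : Fin 2 → k),
        φ ((ρ γ : Matrix (Fin 2) (Fin 2) k).mulVec c) = σ γ (φ c) :=
  blr_embed ρ σ (blrRho_surjective ρ hspan) hCH

/-- `k[Γ] → M₂(k)` is onto if some `ρ c` is `diag(a, b)`, `a ≠ b`, and neither coordinate axis
is stable. -/
theorem blrRho_surjective_of_diag (c γ δ : Γ) (a b : k) (hab : a ≠ b)
    (hc : (ρ c : Matrix (Fin 2) (Fin 2) k) = !![a, 0; 0, b])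
    (hγ : (ρ γ : Matrix (Fin 2) (Fin 2) k) 1 0 ≠ 0)
    (hδ : (ρ δ : Matrix (Fin 2) (Fin 2) k) 0 1 ≠ 0) :
    Function.Surjective (blrRho ρ) := by
  have hmem : ∀ g : Γ, (ρ g : Matrix (Fin 2) (Fin 2) k) ∈ (blrRho ρ).range :=
    fun g => ⟨.of k Γ g, blrRho_of ρ g⟩
  have htop := blr_subalgebra_eq_top (blrRho ρ).range a b hab (hc ▸ hmem c) _ (hmem γ) hγ _
    (hmem δ) hδ
  intro M
  have hM : M ∈ (blrRho ρ).range := by
    rw [htop]
    exact Algebra.mem_top
  exact hM

end Main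

end Fermat.Agent.R38
end MergeWrap_R38_G_BLR

section MergeWrap_S59_AbsIrr -- from S59/AbsIrr.lean

set_option autoImplicit false

/-!
# Cluster J, piece J2(i): irreducible + odd  ⇒  absolutely irreducible

For a two-dimensional `ResidualGaloisRep k` over a field `k` in which `2 ≠ 0`:
if complex conjugation acts with determinant `-1` and the representation is irreducible,
then its base change to EVERY field extension `K / k` is irreducible; in particular it is
absolutely irreducible.  The oddness hypothesis is supplied either by `IsOdd` or by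
`DetIsCyclotomic p` (`p` odd).

Main results (namespace `Fermat.Agent.S59`):
* `complexConjugation_ne_one`
* `absIrr_eigenbasis` : an involution of determinant `-1` on a plane has a `±1` eigenbasis
* `baseChange_isIrreducible_of_det_conj`
* `isAbsolutelyIrreducible_of_det_conj`, `isAbsolutelyIrreducible_of_isOdd`,
  `isAbsolutelyIrreducible_of_detIsCyclotomic`
* `isOdd_conj_of_detIsCyclotomic`
-/

namespace Fermat.Agent.S59

open scoped TensorProduct

/-- Complex conjugation is not the identity of `Gal(ℚ̄/ℚ)`. -/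
theorem complexConjugation_ne_one : complexConjugation ≠ 1 := by
  intro h
  obtain ⟨i, hi⟩ := IsAlgClosed.exists_pow_nat_eq (-1 : AlgebraicClosure ℚ) (n := 2) (by norm_num)
  have h4 : i ^ 4 = 1 := by
    have : i ^ 4 = (i ^ 2) ^ 2 := by ring
    rw [this, hi]; norm_num
  have h1 := Fermat.Agent.Cyclo.complexConjugation_root 4 h4
  rw [h, AlgEquiv.one_apply] at h1
  have hi0 : i ≠ 0 := by
    rintro rfl
    norm_num at hi
  have h2 : i * i = 1 := by
    nth_rewrite 2 [h1]
    exact mul_inv_cancel₀ hi0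
  rw [← sq, hi] at h2
  norm_num at h2

section LinAlg

variable {k : Type} [Field k] {V : Type} [AddCommGroup V] [Module k V]

/-- An involution of determinant `-1` on a plane (over a field with `2 ≠ 0`) has an eigenbasis
with eigenvalues `1` and `-1`. -/
theorem absIrr_eigenbasis (h2 : (2 : k) ≠ 0) (hV : Module.finrank k V = 2)
    (A : Module.End k V) (hA : A * A = 1) (hdet : LinearMap.det A = -1) :
    ∃ e₁ e₂ : V, e₁ ≠ 0 ∧ e₂ ≠ 0 ∧ A e₁ = e₁ ∧ A e₂ = -e₂ ∧
      ∀ v : V, ∃ a b : k, v = a • e₁ + b • e₂ := by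
  have hAA : ∀ v, A (A v) = v := fun v => by
    have := congrArg (fun f : Module.End k V => f v) hA
    simpa using this
  have h11 : (1 : k) ≠ -1 := by
    intro h
    apply h2
    have : (2 : k) = 1 + 1 := by norm_num
    rw [this]
    nth_rewrite 2 [h]
    ring
  -- `A ≠ 1`
  have hne1 : A ≠ 1 := by
    rintro rfl
    rw [map_one] at hdet
    exact h11 hdet
  -- `A ≠ -1`
  have hneg1 : A ≠ -1 := by
    rintro rfl
    have : LinearMap.det (-1 : Module.End k V) = 1 := by
      have h := LinearMap.det_smul (-1 : k) (1 : Module.End k V)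
      rw [hV, map_one] at h
      have e : ((-1 : k) • (1 : Module.End k V)) = -1 := by simp
      rw [e] at h
      rw [h]; norm_num
    rw [this] at hdet
    exact h11 hdet
  obtain ⟨x, hx⟩ : ∃ x, A x ≠ x := by
    by_contra hcon
    push Not at hcon
    exact hne1 (LinearMap.ext fun v => by simpa using hcon v)
  obtain ⟨y, hy⟩ : ∃ y, A y ≠ -y := by
    by_contra hcon
    push Not at hcon
    exact hneg1 (LinearMap.ext fun v => by simpa using hcon v)
  set e₁ : V := y + A y with he₁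
  set e₂ : V := x - A x with he₂
  have he₁0 : e₁ ≠ 0 := by
    intro h
    apply hy
    rw [he₁] at h
    exact eq_neg_of_add_eq_zero_right h
  have he₂0 : e₂ ≠ 0 := by
    intro h
    apply hx
    rw [he₂, sub_eq_zero] at h
    exact h.symm
  have hA1 : A e₁ = e₁ := by
    rw [he₁, map_add, hAA, add_comm]
  have hA2 : A e₂ = -e₂ := by
    rw [he₂, map_sub, hAA, neg_sub]
  refine ⟨e₁, e₂, he₁0, he₂0, hA1, hA2, ?_⟩
  -- linear independence
  have hli : LinearIndependent k ![e₁, e₂] := by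
    rw [LinearIndependent.pair_iff]
    intro s t hst
    have hst' : s • e₁ - t • e₂ = 0 := by
      have := congrArg A hst
      rw [map_add, map_smul, map_smul, hA1, hA2, map_zero, smul_neg] at this
      rw [sub_eq_add_neg]; exact this
    have hs : (2 * s) • e₁ = 0 := by
      have : (2 * s) • e₁ = (s • e₁ + t • e₂) + (s • e₁ - t • e₂) := by
        rw [mul_smul, two_smul]; abel
      rw [this, hst, hst', add_zero]
    have ht : (2 * t) • e₂ = 0 := by
      have : (2 * t) • e₂ = (s • e₁ + t • e₂) - (s • e₁ - t • e₂) := by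
        rw [mul_smul, two_smul]; abel
      rw [this, hst, hst', sub_zero]
    constructor
    · rcases smul_eq_zero.mp hs with h | h
      · exact (mul_eq_zero.mp h).resolve_left h2
      · exact absurd h he₁0
    · rcases smul_eq_zero.mp ht with h | h
      · exact (mul_eq_zero.mp h).resolve_left h2
      · exact absurd h he₂0
  have hspan : Submodule.span k (Set.range ![e₁, e₂]) = ⊤ :=
    hli.span_eq_top_of_card_eq_finrank (by rw [hV]; simp)
  intro v
  have hv : v ∈ Submodule.span k (Set.range ![e₁, e₂]) := by rw [hspan]; trivial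
  have hr : Set.range ![e₁, e₂] = {e₁, e₂} := by
    rw [Matrix.range_cons, Matrix.range_cons, Matrix.range_empty, Set.union_empty]
    rfl
  rw [hr, Submodule.mem_span_pair] at hv
  obtain ⟨a, b, hab⟩ := hv
  exact ⟨a, b, hab.symm⟩

end LinAlg

section Main

variable {k : Type} [Field k]

/-- **J2(i), general form.** If complex conjugation acts with determinant `-1` on an
irreducible `ResidualGaloisRep k` (`2 ≠ 0` in `k`), then the base change to any extension
field is irreducible. -/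
theorem baseChange_isIrreducible_of_det_conj (h2 : (2 : k) ≠ 0) (ρ : ResidualGaloisRep k)
    (hirr : ρ.IsIrreducible) (hc : LinearMap.det (ρ.ρ complexConjugation) = -1)
    (K : Type) [Field K] [Algebra k K] : (ρ.baseChange K).IsIrreducible := by
  intro W hW
  set A : Module.End k ρ.V := ρ.ρ complexConjugation with hAdef
  have hA : A * A = 1 := by
    rw [hAdef, ← map_mul, complexConjugation_mul_self, map_one]
  obtain ⟨e₁, e₂, he₁, he₂, hA1, hA2, hsp⟩ := absIrr_eigenbasis h2 ρ.finrank_eq A hA hc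
  -- the `k`-rational part of `W`
  let ι : ρ.V →ₗ[k] K ⊗[k] ρ.V := TensorProduct.mk k K ρ.V 1
  let W₀ : Submodule k ρ.V := (W.restrictScalars k).comap ι
  have hW₀mem : ∀ v : ρ.V, v ∈ W₀ ↔ (1 : K) ⊗ₜ[k] v ∈ W := fun v => Iff.rfl
  have hact : ∀ (σ : AlgebraicClosure ℚ ≃ₐ[ℚ] AlgebraicClosure ℚ) (a : K) (v : ρ.V),
      (ρ.baseChange K).ρ σ (a ⊗ₜ[k] v) = a ⊗ₜ[k] (ρ.ρ σ v) := fun σ a v => by
    change (ρ.ρ σ).baseChange K (a ⊗ₜ[k] v) = _
    rw [LinearMap.baseChange_tmul]
  have hW₀stab : ∀ σ : AlgebraicClosure ℚ ≃ₐ[ℚ] AlgebraicClosure ℚ,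
      ∀ x ∈ W₀, ρ.ρ σ x ∈ W₀ := by
    intro σ x hx
    rw [hW₀mem] at hx ⊢
    have := hW σ _ hx
    rwa [hact] at this
  have h2K : (2 : K) ≠ 0 := by
    rw [← map_ofNat (algebraMap k K) 2]
    exact (map_ne_zero_iff _ (algebraMap k K).injective).mpr h2
  -- every element of `K ⊗ V` is a combination of `1 ⊗ e₁` and `1 ⊗ e₂`
  have hdecomp : ∀ w : K ⊗[k] ρ.V, ∃ a b : K,
      w = a • ((1 : K) ⊗ₜ[k] e₁) + b • ((1 : K) ⊗ₜ[k] e₂) := by
    intro w
    induction w using TensorProduct.induction_on with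
    | zero => exact ⟨0, 0, by simp⟩
    | tmul c v =>
      obtain ⟨a, b, rfl⟩ := hsp v
      refine ⟨c * algebraMap k K a, c * algebraMap k K b, ?_⟩
      rw [TensorProduct.tmul_add, TensorProduct.tmul_smul, TensorProduct.tmul_smul,
        TensorProduct.smul_tmul', TensorProduct.smul_tmul', TensorProduct.smul_tmul',
        TensorProduct.smul_tmul', smul_eq_mul, smul_eq_mul, mul_one, mul_one,
        Algebra.smul_def, Algebra.smul_def, mul_comm (algebraMap k K a),
        mul_comm (algebraMap k K b)]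
    | add x y hx hy =>
      obtain ⟨a, b, rfl⟩ := hx
      obtain ⟨a', b', rfl⟩ := hy
      exact ⟨a + a', b + b', by rw [add_smul, add_smul]; abel⟩
  rcases hirr W₀ hW₀stab with h0 | h0
  · -- `W₀ = ⊥`, so `W = ⊥`
    left
    rw [eq_bot_iff]
    intro w hw
    obtain ⟨a, b, rfl⟩ := hdecomp w
    have hAw := hW complexConjugation _ hw
    rw [map_add, map_smul, map_smul, hact, hact] at hAw
    change a • ((1 : K) ⊗ₜ[k] (A e₁)) + b • ((1 : K) ⊗ₜ[k] (A e₂)) ∈ W at hAw
    rw [hA1, hA2, TensorProduct.tmul_neg, smul_neg] at hAw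
    have hsum := W.add_mem hw hAw
    have hdiff := W.sub_mem hw hAw
    have hs1 : (2 * a) • ((1 : K) ⊗ₜ[k] e₁) ∈ W := by
      have e : (2 * a) • ((1 : K) ⊗ₜ[k] e₁) =
          (a • ((1 : K) ⊗ₜ[k] e₁) + b • ((1 : K) ⊗ₜ[k] e₂)) +
            (a • ((1 : K) ⊗ₜ[k] e₁) + -(b • ((1 : K) ⊗ₜ[k] e₂))) := by
        rw [mul_smul, two_smul]; abel
      rw [e]; exact hsum
    have hs2 : (2 * b) • ((1 : K) ⊗ₜ[k] e₂) ∈ W := by
      have e : (2 * b) • ((1 : K) ⊗ₜ[k] e₂) =
          (a • ((1 : K) ⊗ₜ[k] e₁) + b • ((1 : K) ⊗ₜ[k] e₂)) -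
            (a • ((1 : K) ⊗ₜ[k] e₁) + -(b • ((1 : K) ⊗ₜ[k] e₂))) := by
        rw [mul_smul, two_smul]; abel
      rw [e]; exact hdiff
    have ha : a = 0 := by
      by_contra ha
      have hne : (2 * a) ≠ 0 := mul_ne_zero h2K ha
      have hmem : (1 : K) ⊗ₜ[k] e₁ ∈ W := by
        have := W.smul_mem (2 * a)⁻¹ hs1
        rwa [smul_smul, inv_mul_cancel₀ hne, one_smul] at this
      have : e₁ ∈ W₀ := (hW₀mem e₁).mpr hmem
      rw [h0, Submodule.mem_bot] at this
      exact he₁ this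
    have hb : b = 0 := by
      by_contra hb
      have hne : (2 * b) ≠ 0 := mul_ne_zero h2K hb
      have hmem : (1 : K) ⊗ₜ[k] e₂ ∈ W := by
        have := W.smul_mem (2 * b)⁻¹ hs2
        rwa [smul_smul, inv_mul_cancel₀ hne, one_smul] at this
      have : e₂ ∈ W₀ := (hW₀mem e₂).mpr hmem
      rw [h0, Submodule.mem_bot] at this
      exact he₂ this
    rw [ha, hb, zero_smul, zero_smul, add_zero]
    exact Submodule.mem_bot K |>.mpr rfl
  · -- `W₀ = ⊤`, so `W = ⊤`
    right
    rw [eq_top_iff]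
    intro w _
    obtain ⟨a, b, rfl⟩ := hdecomp w
    have m1 : (1 : K) ⊗ₜ[k] e₁ ∈ W := (hW₀mem e₁).mp (by rw [h0]; trivial)
    have m2 : (1 : K) ⊗ₜ[k] e₂ ∈ W := (hW₀mem e₂).mp (by rw [h0]; trivial)
    exact W.add_mem (W.smul_mem a m1) (W.smul_mem b m2)

/-- **J2(i).** Irreducible + determinant `-1` at complex conjugation ⇒ absolutely irreducible. -/
theorem isAbsolutelyIrreducible_of_det_conj (h2 : (2 : k) ≠ 0) (ρ : ResidualGaloisRep k)
    (hirr : ρ.IsIrreducible) (hc : LinearMap.det (ρ.ρ complexConjugation) = -1) :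
    ρ.IsAbsolutelyIrreducible :=
  baseChange_isIrreducible_of_det_conj h2 ρ hirr hc (AlgebraicClosure k)

/-- **J2(i).** Irreducible + odd ⇒ absolutely irreducible (`2 ≠ 0` in `k`). -/
theorem isAbsolutelyIrreducible_of_isOdd (h2 : (2 : k) ≠ 0) (ρ : ResidualGaloisRep k)
    (hirr : ρ.IsIrreducible) (hodd : ρ.IsOdd) : ρ.IsAbsolutelyIrreducible :=
  isAbsolutelyIrreducible_of_det_conj h2 ρ hirr
    (hodd complexConjugation complexConjugation_mul_self complexConjugation_ne_one)

/-- Irreducible + odd ⇒ irreducible after every field extension. -/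
theorem baseChange_isIrreducible_of_isOdd (h2 : (2 : k) ≠ 0) (ρ : ResidualGaloisRep k)
    (hirr : ρ.IsIrreducible) (hodd : ρ.IsOdd) (K : Type) [Field K] [Algebra k K] :
    (ρ.baseChange K).IsIrreducible :=
  baseChange_isIrreducible_of_det_conj h2 ρ hirr
    (hodd complexConjugation complexConjugation_mul_self complexConjugation_ne_one) K

/-- A residual representation with cyclotomic determinant has determinant `-1` at complex
conjugation. -/
theorem det_conj_of_detIsCyclotomic (p : ℕ) [Fact p.Prime] (ρ : ResidualGaloisRep k)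
    (hdet : (GaloisRepAdic.ofResidualGaloisRep ρ).DetIsCyclotomic p) :
    LinearMap.det (ρ.ρ complexConjugation) = -1 := by
  obtain ⟨hp, h⟩ := hdet
  have hp0 : (p : k) = 0 := by
    rw [IsLocalRing.maximalIdeal_eq_bot, Ideal.mem_bot] at hp
    exact hp
  have hpp : 0 < p := (Fact.out : p.Prime).pos
  have key := h 1 complexConjugation (p - 1) (fun μ hμ => by
    rw [pow_one] at hμ
    have : NeZero p := ⟨hpp.ne'⟩
    rw [Fermat.Agent.Cyclo.complexConjugation_root p hμ]
    have hμ0 : μ ≠ 0 := by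
      rintro rfl
      rw [zero_pow hpp.ne'] at hμ
      exact zero_ne_one hμ
    apply inv_eq_of_mul_eq_one_left
    rw [← pow_succ, Nat.sub_add_cancel hpp, hμ])
  rw [pow_one, hp0, Ideal.span_singleton_zero, Ideal.mem_bot, sub_eq_zero] at key
  change LinearMap.det (ρ.ρ complexConjugation) = _ at key
  rw [key, Nat.cast_sub hpp, hp0, Nat.cast_one, zero_sub]

/-- **J2(i), the form consumed with S56.** Irreducible + cyclotomic determinant (`p` odd)
⇒ absolutely irreducible. -/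
theorem isAbsolutelyIrreducible_of_detIsCyclotomic (p : ℕ) [Fact p.Prime] (hp2 : p ≠ 2)
    (ρ : ResidualGaloisRep k) (hirr : ρ.IsIrreducible)
    (hdet : (GaloisRepAdic.ofResidualGaloisRep ρ).DetIsCyclotomic p) :
    ρ.IsAbsolutelyIrreducible := by
  have hp0 : (p : k) = 0 := by
    have hp := hdet.1
    rw [IsLocalRing.maximalIdeal_eq_bot, Ideal.mem_bot] at hp
    exact hp
  have h2 : (2 : k) ≠ 0 := by
    intro h
    have hpr : p.Prime := Fact.out
    obtain ⟨m, hm⟩ := hpr.odd_of_ne_two hp2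
    have := congrArg (Nat.cast : ℕ → k) hm
    rw [hp0, Nat.cast_add, Nat.cast_mul, Nat.cast_ofNat, h, zero_mul, zero_add,
      Nat.cast_one] at this
    exact zero_ne_one this
  exact isAbsolutelyIrreducible_of_det_conj h2 ρ hirr (det_conj_of_detIsCyclotomic p ρ hdet)

end Main

end Fermat.Agent.S59
end MergeWrap_S59_AbsIrr

section MergeWrap_R38_G_BLRFree -- from R38/G/BLRFree.lean

set_option autoImplicit false

namespace Fermat.Agent.R38

open Matrix

section Free

variable {k : Type*} [Field k] {Γ : Type*} [Group Γ] {W : Type*} [AddCommGroup W] [Module k W]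
  {V : Type*} [AddCommGroup V] [Module k V]

/-- Eigenvectors for distinct eigenvalues are linearly independent. -/
lemma blr_linearIndependent (A : Module.End k W) (e₁ e₂ : W) (he₁ : e₁ ≠ 0) (he₂ : e₂ ≠ 0)
    (a b : k) (hab : a ≠ b) (h₁ : A e₁ = a • e₁) (h₂ : A e₂ = b • e₂) :
    LinearIndependent k ![e₁, e₂] := by
  rw [LinearIndependent.pair_iff]
  intro x y hxy
  have h := congrArg (fun w => A w - a • w) hxy
  simp only [map_add, map_smul, h₁, h₂, map_zero, smul_zero, sub_zero] at h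
  have h3 : (y * (b - a)) • e₂ = 0 := by
    rw [← h]
    module
  have hy : y = 0 := by
    rcases smul_eq_zero.mp h3 with h4 | h4
    · rcases mul_eq_zero.mp h4 with h5 | h5
      · exact h5
      · exact absurd (sub_eq_zero.mp h5).symm hab
    · exact absurd h4 he₂
  rw [hy, zero_smul, add_zero] at hxy
  rcases smul_eq_zero.mp hxy with h4 | h4
  · exact ⟨h4, hy⟩
  · exact absurd h4 he₁

/-- **Boston–Lenstra–Ribet**, basis-free form, with an eigenbasis. -/
theorem blr_embed_free [Nontrivial V] (ρW : Representation k Γ W) (σ : Representation k Γ V)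
    (e₁ e₂ : W) (he₁ : e₁ ≠ 0) (he₂ : e₂ ≠ 0)
    (hspan : ∀ w : W, ∃ x y : k, w = x • e₁ + y • e₂)
    (c : Γ) (a b : k) (hab : a ≠ b) (hc₁ : ρW c e₁ = a • e₁) (hc₂ : ρW c e₂ = b • e₂)
    (hirr : ∀ N : Submodule k W, (∀ (γ : Γ), ∀ w ∈ N, ρW γ w ∈ N) → N = ⊥ ∨ N = ⊤)
    (hCH : ∀ γ : Γ, σ γ * σ γ - LinearMap.trace k W (ρW γ) • σ γ
      + LinearMap.det (ρW γ) • (1 : Module.End k V) = 0) :
    ∃ φ : W →ₗ[k] V, Function.Injective φ ∧ ∀ (γ : Γ) (w : W), φ (ρW γ w) = σ γ (φ w) := by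
  classical
  -- the eigenbasis
  have hli := blr_linearIndependent (ρW c) e₁ e₂ he₁ he₂ a b hab hc₁ hc₂
  have htop : ⊤ ≤ Submodule.span k (Set.range ![e₁, e₂]) := by
    intro w _
    obtain ⟨x, y, rfl⟩ := hspan w
    refine Submodule.add_mem _ (Submodule.smul_mem _ _ (Submodule.subset_span ⟨0, rfl⟩))
      (Submodule.smul_mem _ _ (Submodule.subset_span ⟨1, rfl⟩))
  let B : Module.Basis (Fin 2) k W := Module.Basis.mk hli htop
  have hB0 : B 0 = e₁ := by
    show Module.Basis.mk hli htop 0 = e₁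
    rw [Module.Basis.mk_apply]
    rfl
  have hB1 : B 1 = e₂ := by
    show Module.Basis.mk hli htop 1 = e₂
    rw [Module.Basis.mk_apply]
    rfl
  -- the matrix representation
  let T : Module.End k W →* Matrix (Fin 2) (Fin 2) k :=
    ((LinearMap.toMatrixAlgEquiv B : Module.End k W ≃ₐ[k] Matrix (Fin 2) (Fin 2) k) :
      Module.End k W →ₐ[k] Matrix (Fin 2) (Fin 2) k)
  let ρ : Γ →* GL (Fin 2) k := (Units.map T).comp ρW.asGroupHom
  have hρ : ∀ γ : Γ, (ρ γ : Matrix (Fin 2) (Fin 2) k) = LinearMap.toMatrix B B (ρW γ) :=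
    fun γ => rfl
  have hentry : ∀ (γ : Γ) (i j : Fin 2),
      (ρ γ : Matrix (Fin 2) (Fin 2) k) i j = B.repr (ρW γ (B j)) i := by
    intro γ i j
    rw [hρ, LinearMap.toMatrix_apply]
  have hexp : ∀ (γ : Γ) (j : Fin 2), ρW γ (B j) =
      (ρ γ : Matrix (Fin 2) (Fin 2) k) 0 j • e₁ + (ρ γ : Matrix (Fin 2) (Fin 2) k) 1 j • e₂ := by
    intro γ j
    have h := B.sum_repr (ρW γ (B j))
    rw [Fin.sum_univ_two, hB0, hB1] at h
    rw [hentry, hentry]
    exact h.symm
  have hr10 : ∀ x y : k, B.repr (x • e₁ + y • e₂) 1 = y := by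
    intro x y
    rw [← hB0, ← hB1, map_add, map_smul, map_smul, Module.Basis.repr_self, Module.Basis.repr_self]
    simp
  have hr00 : ∀ x y : k, B.repr (x • e₁ + y • e₂) 0 = x := by
    intro x y
    rw [← hB0, ← hB1, map_add, map_smul, map_smul, Module.Basis.repr_self, Module.Basis.repr_self]
    simp
  -- `ρ c` is diagonal
  have hc : (ρ c : Matrix (Fin 2) (Fin 2) k) = !![a, 0; 0, b] := by
    ext i j
    rw [hentry]
    fin_cases i <;> fin_cases j
    · show B.repr (ρW c (B 0)) 0 = a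
      rw [hB0, hc₁]
      have := hr00 a 0
      rwa [zero_smul, add_zero] at this
    · show B.repr (ρW c (B 1)) 0 = 0
      rw [hB1, hc₂]
      have := hr00 0 b
      rwa [zero_smul, zero_add] at this
    · show B.repr (ρW c (B 0)) 1 = 0
      rw [hB0, hc₁]
      have := hr10 a 0
      rwa [zero_smul, add_zero] at this
    · show B.repr (ρW c (B 1)) 1 = b
      rw [hB1, hc₂]
      have := hr10 0 b
      rwa [zero_smul, zero_add] at this
  -- no stable axis
  have hne : e₂ ∉ Submodule.span k {e₁} := by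
    intro h
    obtain ⟨x, hx⟩ := Submodule.mem_span_singleton.mp h
    have h0 := (LinearIndependent.pair_iff.mp hli) x (-1) (by rw [hx]; module)
    exact one_ne_zero (neg_eq_zero.mp h0.2)
  have hne' : e₁ ∉ Submodule.span k {e₂} := by
    intro h
    obtain ⟨x, hx⟩ := Submodule.mem_span_singleton.mp h
    have h0 := (LinearIndependent.pair_iff.mp hli) (-1) x (by rw [hx]; module)
    exact one_ne_zero (neg_eq_zero.mp h0.1)
  obtain ⟨γ, hγ⟩ : ∃ γ : Γ, (ρ γ : Matrix (Fin 2) (Fin 2) k) 1 0 ≠ 0 := by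
    by_contra hno
    push Not at hno
    rcases hirr (Submodule.span k {e₁}) (fun γ w hw => by
      obtain ⟨x, rfl⟩ := Submodule.mem_span_singleton.mp hw
      rw [map_smul]
      refine Submodule.smul_mem _ _ ?_
      have h := hexp γ 0
      rw [hB0, hno γ, zero_smul, add_zero] at h
      rw [h]
      exact Submodule.smul_mem _ _ (Submodule.mem_span_singleton_self _)) with h | h
    · exact he₁ ((Submodule.span_singleton_eq_bot).mp h)
    · exact hne (h ▸ Submodule.mem_top)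
  obtain ⟨δ, hδ⟩ : ∃ δ : Γ, (ρ δ : Matrix (Fin 2) (Fin 2) k) 0 1 ≠ 0 := by
    by_contra hno
    push Not at hno
    rcases hirr (Submodule.span k {e₂}) (fun γ w hw => by
      obtain ⟨x, rfl⟩ := Submodule.mem_span_singleton.mp hw
      rw [map_smul]
      refine Submodule.smul_mem _ _ ?_
      have h := hexp γ 1
      rw [hB1, hno γ, zero_smul, zero_add] at h
      rw [h]
      exact Submodule.smul_mem _ _ (Submodule.mem_span_singleton_self _)) with h | h
    · exact he₂ ((Submodule.span_singleton_eq_bot).mp h)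
    · exact hne' (h ▸ Submodule.mem_top)
  have hsurj := blrRho_surjective_of_diag ρ c γ δ a b hab hc hγ hδ
  -- Cayley–Hamilton in matrix form
  have hCH' : ∀ γ : Γ, σ γ * σ γ - (ρ γ : Matrix (Fin 2) (Fin 2) k).trace • σ γ
      + (ρ γ : Matrix (Fin 2) (Fin 2) k).det • (1 : Module.End k V) = 0 := by
    intro γ
    have h1 : (ρ γ : Matrix (Fin 2) (Fin 2) k).trace = LinearMap.trace k W (ρW γ) := by
      rw [hρ, LinearMap.trace_eq_matrix_trace k B]
    have h2 : (ρ γ : Matrix (Fin 2) (Fin 2) k).det = LinearMap.det (ρW γ) := by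
      rw [hρ, LinearMap.det_toMatrix]
    rw [h1, h2]
    exact hCH γ
  obtain ⟨φ₀, hφinj, hφeq⟩ := blr_embed ρ σ hsurj hCH'
  refine ⟨φ₀.comp (B.equivFun : W →ₗ[k] (Fin 2 → k)), ?_, ?_⟩
  · exact hφinj.comp B.equivFun.injective
  · intro γ w
    show φ₀ (B.equivFun (ρW γ w)) = σ γ (φ₀ (B.equivFun w))
    rw [← hφeq, hρ]
    congr 1
    have := LinearMap.toMatrix_mulVec_repr B B (ρW γ) w
    exact this.symm

end Free

section Odd

variable {k : Type} [Field k] {Γ : Type*} [Group Γ] {W : Type} [AddCommGroup W] [Module k W]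
  {V : Type*} [AddCommGroup V] [Module k V]

/-- **Boston–Lenstra–Ribet** for an irreducible odd plane. -/
theorem blr_embed_odd [Nontrivial V] (h2 : (2 : k) ≠ 0) (hW : Module.finrank k W = 2)
    (ρW : Representation k Γ W) (σ : Representation k Γ V)
    (c : Γ) (hcc : c * c = 1) (hdet : LinearMap.det (ρW c) = -1)
    (hirr : ∀ N : Submodule k W, (∀ (γ : Γ), ∀ w ∈ N, ρW γ w ∈ N) → N = ⊥ ∨ N = ⊤)
    (hCH : ∀ γ : Γ, σ γ * σ γ - LinearMap.trace k W (ρW γ) • σ γ
      + LinearMap.det (ρW γ) • (1 : Module.End k V) = 0) :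
    ∃ φ : W →ₗ[k] V, Function.Injective φ ∧ ∀ (γ : Γ) (w : W), φ (ρW γ w) = σ γ (φ w) := by
  have hA : ρW c * ρW c = 1 := by rw [← map_mul, hcc, map_one]
  obtain ⟨e₁, e₂, he₁, he₂, h₁, h₂, hspan⟩ :=
    Fermat.Agent.S59.absIrr_eigenbasis h2 hW (ρW c) hA hdet
  have h11 : (1 : k) ≠ -1 := by
    intro h
    apply h2
    have : (2 : k) = 1 + 1 := by norm_num
    rw [this]
    nth_rewrite 2 [h]
    ring
  exact blr_embed_free ρW σ e₁ e₂ he₁ he₂ hspan c 1 (-1) h11 (by rw [h₁, one_smul])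
    (by rw [h₂, neg_smul, one_smul]) hirr hCH

end Odd

end Fermat.Agent.R38
end MergeWrap_R38_G_BLRFree

section MergeWrap_R38_G_Odd -- from R38/G/Odd.lean

set_option autoImplicit false

open WeierstrassCurve WeierstrassCurve.Affine WeierstrassCurve.Affine.Point

namespace Fermat.Agent.R38

open Fermat.Agent.Cyclo (Qb GQ)

variable (W : WeierstrassCurve ℤ) (hΔ : W.Δ ≠ 0) (p : ℕ) [Fact p.Prime] [DecidableEq Qb]

include hΔ

/-- `E[p]` has `p²` elements. -/
theorem card_torsionBy_Qb :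
    Nat.card (Submodule.torsionBy ℤ ((W.map (Int.castRingHom ℚ))⁄Qb).Point (p : ℕ)) = p ^ 2 := by
  have hΔ' : ((W.map (Int.castRingHom ℚ))⁄Qb).Δ ≠ 0 := by
    change ((W.map (Int.castRingHom ℚ)).map (algebraMap ℚ Qb)).Δ ≠ 0
    rw [WeierstrassCurve.map_Δ, WeierstrassCurve.map_Δ]
    simpa using hΔ
  exact Fermat.Agent.Torsion.card_torsionBy hΔ' (n := p) (Fact.out : p.Prime).one_le

/-- `E[p]` is a plane over `𝔽_p`. -/
theorem finrank_torsionBy :
    Module.finrank (ZMod p)
      (Submodule.torsionBy ℤ ((W.map (Int.castRingHom ℚ))⁄Qb).Point (p : ℕ)) = 2 := by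
  have hp : p.Prime := Fact.out
  have hcard := card_torsionBy_Qb W hΔ p
  have : Finite (Submodule.torsionBy ℤ ((W.map (Int.castRingHom ℚ))⁄Qb).Point (p : ℕ)) :=
    Nat.finite_of_card_ne_zero (by rw [hcard]; exact pow_ne_zero _ hp.ne_zero)
  have h := Module.natCard_eq_pow_finrank (K := ZMod p)
    (V := Submodule.torsionBy ℤ ((W.map (Int.castRingHom ℚ))⁄Qb).Point (p : ℕ))
  rw [Nat.card_zmod, hcard] at h
  exact (Nat.pow_right_injective hp.two_le h).symm

/-- Complex conjugation has determinant `-1` on `E[p]`. -/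
theorem det_complexConjugation_torsionBy :
    LinearMap.det (galoisRepModuleEnd ℚ (K := Qb) (W.map (Int.castRingHom ℚ)) p
      complexConjugation) = -1 := by
  have key : ∀ n : ℕ, n = p →
      LinearMap.det (galoisRepModuleEnd ℚ (K := Qb) (W.map (Int.castRingHom ℚ)) n
        complexConjugation) = -1 →
      LinearMap.det (galoisRepModuleEnd ℚ (K := Qb) (W.map (Int.castRingHom ℚ)) p
        complexConjugation) = -1 := by
    intro n hn h
    subst hn
    exact h
  exact key (p ^ 1) (pow_one p)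
    (Fermat.Agent.FrobTrace.galois_det_complexConjugation W hΔ (p := p) 1)

/-- **Boston–Lenstra–Ribet for `E[p]`.** -/
theorem blr_embed_torsion (hp2 : p ≠ 2)
    (hirr : GaloisRepIsIrreducible (K := Qb) ℚ (W.map (Int.castRingHom ℚ)).toAffine p)
    {V : Type*} [AddCommGroup V] [Module (ZMod p) V] [Nontrivial V]
    (σ : Representation (ZMod p) GQ V)
    (hCH : ∀ g : GQ, σ g * σ g
      - galoisTrace ℚ (K := Qb) (W.map (Int.castRingHom ℚ)).toAffine p g • σ g
      + LinearMap.det (galoisRepModuleEnd ℚ (K := Qb) (W.map (Int.castRingHom ℚ)) p g)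
          • (1 : Module.End (ZMod p) V) = 0) :
    ∃ φ : Submodule.torsionBy ℤ ((W.map (Int.castRingHom ℚ))⁄Qb).Point (p : ℕ) →ₗ[ZMod p] V,
      Function.Injective φ ∧
      ∀ (g : GQ) (x : Submodule.torsionBy ℤ ((W.map (Int.castRingHom ℚ))⁄Qb).Point (p : ℕ)),
        φ (g • x) = σ g (φ x) := by
  have hp : p.Prime := Fact.out
  have h2 : (2 : ZMod p) ≠ 0 := by
    intro h
    have h' : ((2 : ℕ) : ZMod p) = 0 := by exact_mod_cast h
    rw [ZMod.natCast_eq_zero_iff] at h'
    exact hp2 ((Nat.prime_dvd_prime_iff_eq hp Nat.prime_two).mp h')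
  have hcc : (complexConjugation : GQ) * complexConjugation = 1 := complexConjugation_mul_self
  exact blr_embed_odd h2 (finrank_torsionBy W hΔ p)
    (galoisRepModuleEnd ℚ (K := Qb) (W.map (Int.castRingHom ℚ)).toAffine p) σ
    complexConjugation hcc (det_complexConjugation_torsionBy W hΔ p)
    (fun N hN => hirr.2 N (fun g x hx => hN g x hx)) hCH

end Fermat.Agent.R38
end MergeWrap_R38_G_Odd

section MergeWrap_R38_G_EmbedAbs -- from R38/G/EmbedAbs.lean

set_option autoImplicit false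
set_option linter.style.haveILetI false

open WeierstrassCurve WeierstrassCurve.Affine WeierstrassCurve.Affine.Point

namespace Fermat.Agent.R38

open Fermat.Agent.Cyclo (Qb GQ)

section abstract

variable {G : Type*} [Monoid G] {J : Type*} [AddCommGroup J] [DistribMulAction G J]
  (p : ℕ) (V : AddSubgroup J)

/-- The `𝔽_p`-structure of a `p`-torsion subgroup. -/
@[reducible] def zmodModuleOfTorsion (hVp : ∀ y ∈ V, p • y = 0) : Module (ZMod p) V :=
  AddCommGroup.zmodModule (n := p) (G := V) fun y => Subtype.ext (by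
    rw [AddSubgroup.coe_nsmul, AddSubgroup.coe_zero]
    exact hVp y.1 y.2)

/-- The action on a stable `p`-torsion subgroup, as a representation over `𝔽_p`. -/
def stableRep (hVp : ∀ y ∈ V, p • y = 0) (hVg : ∀ g : G, ∀ y ∈ V, g • y ∈ V) :
    letI := zmodModuleOfTorsion p V hVp
    Representation (ZMod p) G V :=
  letI := zmodModuleOfTorsion p V hVp
  { toFun := fun g => AddMonoidHom.toZModLinearMap p
      { toFun := fun y => ⟨g • y.1, hVg g y.1 y.2⟩
        map_zero' := Subtype.ext (smul_zero g)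
        map_add' := fun y z => Subtype.ext (smul_add g y.1 z.1) }
    map_one' := by
      apply LinearMap.ext
      intro y
      exact Subtype.ext (one_smul G y.1)
    map_mul' := by
      intro g h
      apply LinearMap.ext
      intro y
      exact Subtype.ext (mul_smul g h y.1) }

theorem stableRep_apply_coe (hVp : ∀ y ∈ V, p • y = 0) (hVg : ∀ g : G, ∀ y ∈ V, g • y ∈ V)
    (g : G) (y : V) :
    letI := zmodModuleOfTorsion p V hVp
    ((stableRep p V hVp hVg g y : V) : J) = g • (y : J) := rfl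

end abstract

section model

variable (W : WeierstrassCurve ℤ) (hΔ : W.Δ ≠ 0) (p : ℕ) [Fact p.Prime] [DecidableEq Qb]

include hΔ

/-- **BLR, additive form**, for `E = W_ℚ`. -/
theorem blr_embed_addSubgroup (hp2 : p ≠ 2)
    (hirr : GaloisRepIsIrreducible (K := Qb) ℚ (W.map (Int.castRingHom ℚ)).toAffine p)
    {J : Type*} [AddCommGroup J] [DistribMulAction GQ J] (V : AddSubgroup J)
    (hVp : ∀ y ∈ V, p • y = 0) (hVg : ∀ g : GQ, ∀ y ∈ V, g • y ∈ V)
    (hVne : ∃ y ∈ V, y ≠ 0)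
    (hCH : ∀ g : GQ, ∃ t d : ℤ,
      (t : ZMod p) = galoisTrace ℚ (K := Qb) (W.map (Int.castRingHom ℚ)).toAffine p g ∧
      (d : ZMod p) =
        LinearMap.det (galoisRepModuleEnd ℚ (K := Qb) (W.map (Int.castRingHom ℚ)) p g) ∧
      ∀ y ∈ V, g • g • y - t • g • y + d • y = 0) :
    ∃ θ : Submodule.torsionBy ℤ ((W.map (Int.castRingHom ℚ))⁄Qb).Point (p : ℕ) →+ J,
      Function.Injective θ ∧
      (∀ (g : GQ) (x : Submodule.torsionBy ℤ ((W.map (Int.castRingHom ℚ))⁄Qb).Point (p : ℕ)),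
        θ (g • x) = g • θ x) ∧
      ∀ x, θ x ∈ V := by
  letI := zmodModuleOfTorsion p V hVp
  haveI : Nontrivial V := by
    obtain ⟨y, hy, hy0⟩ := hVne
    exact ⟨⟨⟨y, hy⟩, 0, fun h => hy0 (congrArg Subtype.val h)⟩⟩
  obtain ⟨φ, hφinj, hφ⟩ := blr_embed_torsion W hΔ p hp2 hirr (stableRep p V hVp hVg) (by
    intro g
    obtain ⟨t, d, ht, hd, hrel⟩ := hCH g
    apply LinearMap.ext
    intro y
    rw [← ht, ← hd]
    simp only [LinearMap.add_apply, LinearMap.sub_apply, LinearMap.smul_apply,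
      Module.End.mul_apply, Module.End.one_apply, LinearMap.zero_apply,
      Int.cast_smul_eq_zsmul]
    apply Subtype.ext
    simp only [AddSubgroup.coe_add, AddSubgroup.coe_sub, AddSubgroup.coe_zsmul,
      AddSubgroup.coe_zero]
    exact hrel y.1 y.2)
  refine ⟨V.subtype.comp φ.toAddMonoidHom, ?_, ?_, ?_⟩
  · exact V.subtype_injective.comp hφinj
  · intro g x
    change ((φ (g • x) : V) : J) = g • ((φ x : V) : J)
    rw [hφ g x]
    rfl
  · intro x
    exact (φ x).2

end model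

section transport

variable (E : WeierstrassCurve ℚ) (W : WeierstrassCurve ℤ) (C : VariableChange ℚ)
  (hC : C • E = W.map (Int.castRingHom ℚ)) (p : ℕ) [DecidableEq Qb]

include hC

/-- The change of variables on `p`-torsion points. -/
noncomputable def torsHomOfModel :
    Submodule.torsionBy ℤ (E⁄Qb).Point (p : ℕ) →+
      Submodule.torsionBy ℤ ((W.map (Int.castRingHom ℚ))⁄Qb).Point (p : ℕ) where
  toFun x := ⟨VarChange.vcHomBC (K := Qb) C hC x.1, by
    rw [Submodule.mem_torsionBy_iff, ← map_zsmul, (Submodule.mem_torsionBy_iff _ _).1 x.2,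
      _root_.map_zero]⟩
  map_zero' := Subtype.ext (_root_.map_zero _)
  map_add' x y := Subtype.ext (map_add _ _ _)

theorem torsHomOfModel_coe (x : Submodule.torsionBy ℤ (E⁄Qb).Point (p : ℕ)) :
    ((torsHomOfModel E W C hC p x :
      Submodule.torsionBy ℤ ((W.map (Int.castRingHom ℚ))⁄Qb).Point (p : ℕ)) :
        ((W.map (Int.castRingHom ℚ))⁄Qb).Point) = VarChange.vcHomBC (K := Qb) C hC x.1 := rfl

theorem torsHomOfModel_injective : Function.Injective (torsHomOfModel E W C hC p) := by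
  intro x y h
  apply Subtype.ext
  exact VarChange.vcHomBC_injective (K := Qb) C hC (congrArg Subtype.val h)

theorem torsHomOfModel_surjective : Function.Surjective (torsHomOfModel E W C hC p) := by
  intro y
  obtain ⟨x, hx⟩ := VarChange.vcHomBC_surjective (K := Qb) C hC y.1
  have hxp : x ∈ Submodule.torsionBy ℤ (E⁄Qb).Point (p : ℕ) := by
    rw [Submodule.mem_torsionBy_iff]
    apply VarChange.vcHomBC_injective (K := Qb) C hC
    rw [map_zsmul, hx, (Submodule.mem_torsionBy_iff _ _).1 y.2, _root_.map_zero]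
  exact ⟨⟨x, hxp⟩, Subtype.ext hx⟩

theorem torsHomOfModel_smul (g : GQ) (x : Submodule.torsionBy ℤ (E⁄Qb).Point (p : ℕ)) :
    torsHomOfModel E W C hC p (g • x) = g • torsHomOfModel E W C hC p x := by
  apply Subtype.ext
  exact VarChange.vcHomBC_map C hC g.toAlgHom x.1

/-- The Galois-equivariant isomorphism `E[p] ≃ W_ℚ[p]`. -/
noncomputable def torsEquivOfModel :
    Submodule.torsionBy ℤ (E⁄Qb).Point (p : ℕ) ≃ₗ[ZMod p]
      Submodule.torsionBy ℤ ((W.map (Int.castRingHom ℚ))⁄Qb).Point (p : ℕ) :=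
  LinearEquiv.ofBijective ((torsHomOfModel E W C hC p).toZModLinearMap p)
    ⟨torsHomOfModel_injective E W C hC p, torsHomOfModel_surjective E W C hC p⟩

theorem torsEquivOfModel_apply (x : Submodule.torsionBy ℤ (E⁄Qb).Point (p : ℕ)) :
    torsEquivOfModel E W C hC p x = torsHomOfModel E W C hC p x := rfl

theorem torsEquivOfModel_smul (g : GQ) (x : Submodule.torsionBy ℤ (E⁄Qb).Point (p : ℕ)) :
    torsEquivOfModel E W C hC p (g • x) = g • torsEquivOfModel E W C hC p x :=
  torsHomOfModel_smul E W C hC p g x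

theorem torsEquivOfModel_conj (g : GQ) :
    (torsEquivOfModel E W C hC p).conj (galoisRepModuleEnd ℚ (K := Qb) E p g) =
      galoisRepModuleEnd ℚ (K := Qb) (W.map (Int.castRingHom ℚ)) p g := by
  apply LinearMap.ext
  intro y
  rw [LinearEquiv.conj_apply_apply, galoisRepModuleEnd_apply, galoisRepModuleEnd_apply,
    torsEquivOfModel_smul, LinearEquiv.apply_symm_apply]

/-- The trace of `g` on `E[p]` does not depend on the model. -/
theorem galoisTrace_eq_of_model (g : GQ) :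
    galoisTrace ℚ (K := Qb) E.toAffine p g =
      galoisTrace ℚ (K := Qb) (W.map (Int.castRingHom ℚ)).toAffine p g := by
  rw [galoisTrace_def, galoisTrace_def]
  change _ = LinearMap.trace (ZMod p) _
    (galoisRepModuleEnd ℚ (K := Qb) (W.map (Int.castRingHom ℚ)) p g)
  rw [← torsEquivOfModel_conj E W C hC p g, LinearMap.trace_conj']

/-- The determinant of `g` on `E[p]` does not depend on the model. -/
theorem galoisDet_eq_of_model (g : GQ) :
    LinearMap.det (galoisRepModuleEnd ℚ (K := Qb) E p g) =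
      LinearMap.det (galoisRepModuleEnd ℚ (K := Qb) (W.map (Int.castRingHom ℚ)) p g) := by
  rw [← torsEquivOfModel_conj E W C hC p g]
  exact (LinearMap.det_conj _ (torsEquivOfModel E W C hC p)).symm

/-- Irreducibility of `E[p]` does not depend on the model. -/
theorem galoisRepIsIrreducible_of_model
    (hirr : GaloisRepIsIrreducible (K := Qb) ℚ E.toAffine p) :
    GaloisRepIsIrreducible (K := Qb) ℚ (W.map (Int.castRingHom ℚ)).toAffine p := by
  obtain ⟨hnt, hN⟩ := hirr
  refine ⟨?_, ?_⟩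
  · haveI := hnt
    exact (torsEquivOfModel E W C hC p).injective.nontrivial
  · intro N hNst
    have hst : IsGaloisStable (K := Qb) ℚ
        (N.comap (torsEquivOfModel E W C hC p).toLinearMap) := by
      intro g x hx
      rw [Submodule.mem_comap] at hx ⊢
      change torsEquivOfModel E W C hC p (g • x) ∈ N
      rw [torsEquivOfModel_smul]
      exact hNst g _ hx
    rcases hN _ hst with h | h
    · left
      rw [eq_bot_iff]
      intro y hy
      have h1 : (torsEquivOfModel E W C hC p).symm y ∈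
          N.comap (torsEquivOfModel E W C hC p).toLinearMap := by
        rw [Submodule.mem_comap]
        change torsEquivOfModel E W C hC p ((torsEquivOfModel E W C hC p).symm y) ∈ N
        rw [LinearEquiv.apply_symm_apply]
        exact hy
      rw [h, Submodule.mem_bot] at h1
      rw [Submodule.mem_bot]
      have := congrArg (torsEquivOfModel E W C hC p) h1
      rwa [LinearEquiv.apply_symm_apply, _root_.map_zero] at this
    · right
      rw [eq_top_iff]
      intro y _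
      have h1 : (torsEquivOfModel E W C hC p).symm y ∈
          N.comap (torsEquivOfModel E W C hC p).toLinearMap := by
        rw [h]
        exact Submodule.mem_top
      rw [Submodule.mem_comap] at h1
      change torsEquivOfModel E W C hC p ((torsEquivOfModel E W C hC p).symm y) ∈ N at h1
      rwa [LinearEquiv.apply_symm_apply] at h1

end transport

section general

/-- An integral model of an elliptic curve has nonzero discriminant. -/
theorem delta_ne_zero_of_model (E : WeierstrassCurve ℚ) (W : WeierstrassCurve ℤ)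
    [E.IsElliptic] (hW : W.IsIntegralModelOf E) : W.Δ ≠ 0 := by
  obtain ⟨C, hC⟩ := hW
  intro h0
  have h1 : (W.map (Int.castRingHom ℚ)).Δ = 0 := by
    rw [WeierstrassCurve.map_Δ, h0, _root_.map_zero]
  rw [← hC, WeierstrassCurve.variableChange_Δ] at h1
  have hE : E.Δ ≠ 0 := E.isUnit_Δ.ne_zero
  rcases mul_eq_zero.1 h1 with h | h
  · exact pow_ne_zero _ (Units.ne_zero _) h
  · exact hE h

variable (E : WeierstrassCurve ℚ) (W : WeierstrassCurve ℤ) (p : ℕ) [Fact p.Prime]
  [DecidableEq Qb]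

/-- **BLR, additive form**, for `E / ℚ` with integral model `W` (`Δ_W ≠ 0`); the relation is
stated with the trace and determinant of `g` on `W_ℚ[p]`. -/
theorem blr_embed_addSubgroup_of_model (hΔ : W.Δ ≠ 0) (hW : W.IsIntegralModelOf E) (hp2 : p ≠ 2)
    (hirr : GaloisRepIsIrreducible (K := Qb) ℚ E.toAffine p)
    {J : Type*} [AddCommGroup J] [DistribMulAction GQ J] (V : AddSubgroup J)
    (hVp : ∀ y ∈ V, p • y = 0) (hVg : ∀ g : GQ, ∀ y ∈ V, g • y ∈ V)
    (hVne : ∃ y ∈ V, y ≠ 0)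
    (hCH : ∀ g : GQ, ∃ t d : ℤ,
      (t : ZMod p) = galoisTrace ℚ (K := Qb) (W.map (Int.castRingHom ℚ)).toAffine p g ∧
      (d : ZMod p) =
        LinearMap.det (galoisRepModuleEnd ℚ (K := Qb) (W.map (Int.castRingHom ℚ)) p g) ∧
      ∀ y ∈ V, g • g • y - t • g • y + d • y = 0) :
    ∃ θ : Submodule.torsionBy ℤ (E⁄Qb).Point (p : ℕ) →+ J,
      Function.Injective θ ∧
      (∀ (g : GQ) (x : Submodule.torsionBy ℤ (E⁄Qb).Point (p : ℕ)), θ (g • x) = g • θ x) ∧
      ∀ x, θ x ∈ V := by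
  obtain ⟨C, hC⟩ := hW
  obtain ⟨θ, hinj, heq, hmem⟩ := blr_embed_addSubgroup W hΔ p hp2
    (galoisRepIsIrreducible_of_model E W C hC p hirr) V hVp hVg hVne hCH
  refine ⟨θ.comp (torsHomOfModel E W C hC p), ?_, ?_, ?_⟩
  · exact hinj.comp (torsHomOfModel_injective E W C hC p)
  · intro g x
    change θ (torsHomOfModel E W C hC p (g • x)) = g • θ (torsHomOfModel E W C hC p x)
    rw [torsHomOfModel_smul, heq]
  · intro x
    exact hmem _

/-- The same with the relation required for ALL integer lifts of trace and determinant. -/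
theorem blr_embed_addSubgroup_of_model_forall (hΔ : W.Δ ≠ 0) (hW : W.IsIntegralModelOf E)
    (hp2 : p ≠ 2)
    (hirr : GaloisRepIsIrreducible (K := Qb) ℚ E.toAffine p)
    {J : Type*} [AddCommGroup J] [DistribMulAction GQ J] (V : AddSubgroup J)
    (hVp : ∀ y ∈ V, p • y = 0) (hVg : ∀ g : GQ, ∀ y ∈ V, g • y ∈ V)
    (hVne : ∃ y ∈ V, y ≠ 0)
    (hCH : ∀ (g : GQ) (t d : ℤ),
      (t : ZMod p) = galoisTrace ℚ (K := Qb) (W.map (Int.castRingHom ℚ)).toAffine p g →
      (d : ZMod p) =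
        LinearMap.det (galoisRepModuleEnd ℚ (K := Qb) (W.map (Int.castRingHom ℚ)) p g) →
      ∀ y ∈ V, g • g • y - t • g • y + d • y = 0) :
    ∃ θ : Submodule.torsionBy ℤ (E⁄Qb).Point (p : ℕ) →+ J,
      Function.Injective θ ∧
      (∀ (g : GQ) (x : Submodule.torsionBy ℤ (E⁄Qb).Point (p : ℕ)), θ (g • x) = g • θ x) ∧
      ∀ x, θ x ∈ V := by
  refine blr_embed_addSubgroup_of_model E W p hΔ hW hp2 hirr V hVp hVg hVne ?_
  intro g
  obtain ⟨t, ht⟩ := ZMod.intCast_surjective
    (galoisTrace ℚ (K := Qb) (W.map (Int.castRingHom ℚ)).toAffine p g)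
  obtain ⟨d, hd⟩ := ZMod.intCast_surjective
    (LinearMap.det (galoisRepModuleEnd ℚ (K := Qb) (W.map (Int.castRingHom ℚ)) p g))
  exact ⟨t, d, ht, hd, hCH g t d ht hd⟩

/-- The same with the trace and determinant of `g` on `E[p]` itself. -/
theorem blr_embed_addSubgroup_of_model' (hΔ : W.Δ ≠ 0) (hW : W.IsIntegralModelOf E)
    (hp2 : p ≠ 2)
    (hirr : GaloisRepIsIrreducible (K := Qb) ℚ E.toAffine p)
    {J : Type*} [AddCommGroup J] [DistribMulAction GQ J] (V : AddSubgroup J)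
    (hVp : ∀ y ∈ V, p • y = 0) (hVg : ∀ g : GQ, ∀ y ∈ V, g • y ∈ V)
    (hVne : ∃ y ∈ V, y ≠ 0)
    (hCH : ∀ g : GQ, ∃ t d : ℤ,
      (t : ZMod p) = galoisTrace ℚ (K := Qb) E.toAffine p g ∧
      (d : ZMod p) = LinearMap.det (galoisRepModuleEnd ℚ (K := Qb) E p g) ∧
      ∀ y ∈ V, g • g • y - t • g • y + d • y = 0) :
    ∃ θ : Submodule.torsionBy ℤ (E⁄Qb).Point (p : ℕ) →+ J,
      Function.Injective θ ∧
      (∀ (g : GQ) (x : Submodule.torsionBy ℤ (E⁄Qb).Point (p : ℕ)), θ (g • x) = g • θ x) ∧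
      ∀ x, θ x ∈ V := by
  obtain ⟨C, hC⟩ := id hW
  refine blr_embed_addSubgroup_of_model E W p hΔ hW hp2 hirr V hVp hVg hVne ?_
  intro g
  obtain ⟨t, d, ht, hd, hrel⟩ := hCH g
  exact ⟨t, d, ht.trans (galoisTrace_eq_of_model E W C hC p g),
    hd.trans (galoisDet_eq_of_model E W C hC p g), hrel⟩

/-- **BLR, additive form, for an elliptic curve `E / ℚ` with integral model `W`** (the shape
consumed by block G: `FreyEmbedsIn E p V`). -/
theorem blr_embed_elliptic [E.IsElliptic] (hW : W.IsIntegralModelOf E) (hp2 : p ≠ 2)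
    (hirr : GaloisRepIsIrreducible (K := Qb) ℚ E.toAffine p)
    {J : Type*} [AddCommGroup J] [DistribMulAction GQ J] (V : AddSubgroup J)
    (hVp : ∀ y ∈ V, p • y = 0) (hVg : ∀ g : GQ, ∀ y ∈ V, g • y ∈ V)
    (hVne : ∃ y ∈ V, y ≠ 0)
    (hCH : ∀ g : GQ, ∃ t d : ℤ,
      (t : ZMod p) = galoisTrace ℚ (K := Qb) (W.map (Int.castRingHom ℚ)).toAffine p g ∧
      (d : ZMod p) =
        LinearMap.det (galoisRepModuleEnd ℚ (K := Qb) (W.map (Int.castRingHom ℚ)) p g) ∧
      ∀ y ∈ V, g • g • y - t • g • y + d • y = 0) :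
    ∃ θ : Submodule.torsionBy ℤ (E⁄Qb).Point (p : ℕ) →+ J,
      Function.Injective θ ∧
      (∀ (g : GQ) (x : Submodule.torsionBy ℤ (E⁄Qb).Point (p : ℕ)), θ (g • x) = g • θ x) ∧
      ∀ x, θ x ∈ V :=
  blr_embed_addSubgroup_of_model E W p (delta_ne_zero_of_model E W hW) hW hp2 hirr V hVp hVg
    hVne hCH

/-- The same with the relation for ALL integer lifts of trace and determinant. -/
theorem blr_embed_elliptic_forall [E.IsElliptic] (hW : W.IsIntegralModelOf E) (hp2 : p ≠ 2)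
    (hirr : GaloisRepIsIrreducible (K := Qb) ℚ E.toAffine p)
    {J : Type*} [AddCommGroup J] [DistribMulAction GQ J] (V : AddSubgroup J)
    (hVp : ∀ y ∈ V, p • y = 0) (hVg : ∀ g : GQ, ∀ y ∈ V, g • y ∈ V)
    (hVne : ∃ y ∈ V, y ≠ 0)
    (hCH : ∀ (g : GQ) (t d : ℤ),
      (t : ZMod p) = galoisTrace ℚ (K := Qb) (W.map (Int.castRingHom ℚ)).toAffine p g →
      (d : ZMod p) =
        LinearMap.det (galoisRepModuleEnd ℚ (K := Qb) (W.map (Int.castRingHom ℚ)) p g) →
      ∀ y ∈ V, g • g • y - t • g • y + d • y = 0) :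
    ∃ θ : Submodule.torsionBy ℤ (E⁄Qb).Point (p : ℕ) →+ J,
      Function.Injective θ ∧
      (∀ (g : GQ) (x : Submodule.torsionBy ℤ (E⁄Qb).Point (p : ℕ)), θ (g • x) = g • θ x) ∧
      ∀ x, θ x ∈ V :=
  blr_embed_addSubgroup_of_model_forall E W p (delta_ne_zero_of_model E W hW) hW hp2 hirr V
    hVp hVg hVne hCH

end general

end Fermat.Agent.R38
end MergeWrap_R38_G_EmbedAbs

section MergeWrap_R38_G_FrobRelCore -- from R38/G/FrobRelCore.lean

/-!
# Row 38, block G, seat G3a: the abstract core of the Frobenius relation (helper14)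

* `g3aLucas t d`: the Lucas sequence `s 0 = 2`, `s 1 = t`, `s (j+2) = t s (j+1) - d s j`.
* `g3a_pow_quadratic`: in an `R`-algebra, `a² - t a + d = 0` implies
  `(a^j)² - s_j a^j + d^j = 0`.
* `g3a_end_trace_pow`: on a free module of rank `2`, `tr (B^j) = s_j (tr B, det B)`.
* `g3a_core`: if `a² - tr(B) a + det(B) = 0` then `(a^j)² - tr(B^j) a^j + det(B^j) = 0`.
-/

set_option autoImplicit false

namespace Fermat.Agent.R38

section Lucas

variable {R : Type*} [CommRing R]

/-- The Lucas sequence `V_j(t, d)`. -/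
def g3aLucas (t d : R) : ℕ → R
  | 0 => 2
  | 1 => t
  | (j + 2) => t * g3aLucas t d (j + 1) - d * g3aLucas t d j

@[simp] theorem g3aLucas_zero (t d : R) : g3aLucas t d 0 = 2 := rfl

@[simp] theorem g3aLucas_one (t d : R) : g3aLucas t d 1 = t := rfl

theorem g3aLucas_succ_succ (t d : R) (j : ℕ) :
    g3aLucas t d (j + 2) = t * g3aLucas t d (j + 1) - d * g3aLucas t d j := rfl

theorem g3aLucas_map {R' : Type*} [CommRing R'] (f : R →+* R') (t d : R) (j : ℕ) :
    f (g3aLucas t d j) = g3aLucas (f t) (f d) j := by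
  induction j using Nat.strong_induction_on with
  | _ j ih =>
    match j, ih with
    | 0, _ => rw [g3aLucas_zero, g3aLucas_zero]; exact map_ofNat f 2
    | 1, _ => rw [g3aLucas_one, g3aLucas_one]
    | (j + 2), ih =>
      rw [g3aLucas_succ_succ, g3aLucas_succ_succ, map_sub, map_mul, map_mul,
        ih (j + 1) (by omega), ih j (by omega)]

end Lucas

section Algebra

variable {R E : Type*} [CommRing R] [Ring E] [Algebra R E]

theorem g3a_sq_eq (a : E) (t d : R) (h : a * a - t • a + d • (1 : E) = 0) :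
    a * a = t • a - d • (1 : E) := by
  rw [← sub_eq_zero, ← h]
  abel

theorem g3a_mul_conj (a : E) (t d : R) (h : a * a - t • a + d • (1 : E) = 0) :
    a * (t • (1 : E) - a) = d • (1 : E) := by
  rw [mul_sub, mul_smul_comm, mul_one, g3a_sq_eq a t d h]
  abel

theorem g3a_conj_mul (a : E) (t d : R) (h : a * a - t • a + d • (1 : E) = 0) :
    (t • (1 : E) - a) * a = d • (1 : E) := by
  rw [sub_mul, smul_mul_assoc, one_mul, g3a_sq_eq a t d h]
  abel

/-- `a^j + (t - a)^j = s_j` when `a² - t a + d = 0`. -/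
theorem g3a_pow_add_conj (a : E) (t d : R)
    (h : a * a - t • a + d • (1 : E) = 0) (j : ℕ) :
    a ^ j + (t • (1 : E) - a) ^ j = g3aLucas t d j • (1 : E) := by
  have hab := g3a_mul_conj a t d h
  have hba := g3a_conj_mul a t d h
  generalize hb : t • (1 : E) - a = b at hab hba ⊢
  have hsum : a + b = t • (1 : E) := by rw [← hb]; abel
  induction j using Nat.strong_induction_on with
  | _ j ih =>
    match j, ih with
    | 0, _ =>
      rw [pow_zero, pow_zero, g3aLucas_zero, ← one_add_one_eq_two, add_smul, one_smul]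
    | 1, _ => rw [pow_one, pow_one, g3aLucas_one, hsum]
    | (j + 2), ih =>
      have h1 := ih (j + 1) (by omega)
      have h0 := ih j (by omega)
      have e1 : a * b ^ (j + 1) = (a * b) * b ^ j := by rw [pow_succ', mul_assoc]
      have e2 : b * a ^ (j + 1) = (b * a) * a ^ j := by rw [pow_succ', mul_assoc]
      have e3 : a * a ^ (j + 1) = a ^ (j + 2) := (pow_succ' a (j + 1)).symm
      have e4 : b * b ^ (j + 1) = b ^ (j + 2) := (pow_succ' b (j + 1)).symm
      have e : a ^ (j + 2) + b ^ (j + 2)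
          = (a + b) * (a ^ (j + 1) + b ^ (j + 1)) - (a * b) * b ^ j - (b * a) * a ^ j := by
        rw [add_mul, mul_add, mul_add, e1, e2, e3, e4]
        abel
      have h0' : b ^ j + a ^ j = g3aLucas t d j • (1 : E) := by rw [add_comm]; exact h0
      rw [e, h1, hab, hba, hsum]
      simp only [smul_mul_assoc, one_mul]
      rw [sub_sub, ← smul_add, h0', smul_smul, smul_smul, ← sub_smul, g3aLucas_succ_succ]

/-- **Lemma A**: `a² - t a + d = 0` implies `(a^j)² - s_j a^j + d^j = 0`. -/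
theorem g3a_pow_quadratic (a : E) (t d : R)
    (h : a * a - t • a + d • (1 : E) = 0) (j : ℕ) :
    a ^ j * a ^ j - g3aLucas t d j • a ^ j + d ^ j • (1 : E) = 0 := by
  have hab := g3a_mul_conj a t d h
  have hba := g3a_conj_mul a t d h
  have hs := g3a_pow_add_conj a t d h j
  generalize t • (1 : E) - a = b at hab hba hs
  have hcomm : Commute a b := by
    show a * b = b * a
    rw [hab, hba]
  have hd : a ^ j * b ^ j = d ^ j • (1 : E) := by
    rw [← hcomm.mul_pow, hab, smul_pow, one_pow]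
  have e : g3aLucas t d j • a ^ j = (a ^ j + b ^ j) * a ^ j := by
    rw [hs, smul_mul_assoc, one_mul]
  rw [e, ← hd, add_mul, (hcomm.pow_pow j j).eq]
  abel

end Algebra

section Rank2

variable {R : Type*} [CommRing R]

/-- Cayley–Hamilton for `2 × 2` matrices. -/
theorem g3a_matrix_cayley_hamilton (M : Matrix (Fin 2) (Fin 2) R) :
    M * M - M.trace • M + M.det • (1 : Matrix (Fin 2) (Fin 2) R) = 0 := by
  ext i j
  fin_cases i <;> fin_cases j <;>
    simp [Matrix.mul_apply, Fin.sum_univ_two, Matrix.trace_fin_two, Matrix.det_fin_two] <;> ring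

/-- The trace of a power of a `2 × 2` matrix is the Lucas sequence of its trace and
determinant. -/
theorem g3a_matrix_trace_pow (M : Matrix (Fin 2) (Fin 2) R) (j : ℕ) :
    (M ^ j).trace = g3aLucas M.trace M.det j := by
  induction j using Nat.strong_induction_on with
  | _ j ih =>
    match j, ih with
    | 0, _ =>
      rw [pow_zero, Matrix.trace_one, g3aLucas_zero]
      simp
    | 1, _ => rw [pow_one, g3aLucas_one]
    | (j + 2), ih =>
      have hpow : M ^ (j + 2) = M.trace • M ^ (j + 1) - M.det • M ^ j := by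
        have hCH := g3a_matrix_cayley_hamilton M
        have h2 : M * M = M.trace • M - M.det • (1 : Matrix (Fin 2) (Fin 2) R) := by
          rw [← sub_eq_zero, ← hCH]
          abel
        calc M ^ (j + 2) = (M * M) * M ^ j := by rw [← pow_two, ← pow_add, add_comm]
             _ = M.trace • M ^ (j + 1) - M.det • M ^ j := by
              rw [h2, sub_mul, smul_mul_assoc, smul_mul_assoc, one_mul, pow_succ']
      rw [hpow, Matrix.trace_sub, Matrix.trace_smul, Matrix.trace_smul, ih (j + 1) (by omega),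
        ih j (by omega), g3aLucas_succ_succ, smul_eq_mul, smul_eq_mul]

variable {V : Type*} [AddCommGroup V] [Module R V]

/-- The trace of a power of an endomorphism of a free module of rank `2`. -/
theorem g3a_end_trace_pow (bs : Module.Basis (Fin 2) R V) (B : Module.End R V) (j : ℕ) :
    LinearMap.trace R V (B ^ j) = g3aLucas (LinearMap.trace R V B) (LinearMap.det B) j := by
  rw [LinearMap.trace_eq_matrix_trace R bs, LinearMap.trace_eq_matrix_trace R bs,
    ← LinearMap.det_toMatrix bs]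
  have : LinearMap.toMatrix bs bs (B ^ j) = (LinearMap.toMatrix bs bs B) ^ j := by
    induction j with
    | zero => simp [Module.End.one_eq_id]
    | succ j ih =>
      rw [pow_succ, pow_succ, Module.End.mul_eq_comp, LinearMap.toMatrix_comp bs bs bs, ih]
  rw [this]
  exact g3a_matrix_trace_pow _ j

variable {E : Type*} [Ring E] [Algebra R E]

/-- **The core of G3a**: the quadratic relation for `(a, B)` implies the one for
`(a^j, B^j)`. -/
theorem g3a_core (bs : Module.Basis (Fin 2) R V) (B : Module.End R V) (a : E) (j : ℕ)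
    (h : a * a - LinearMap.trace R V B • a + LinearMap.det B • (1 : E) = 0) :
    a ^ j * a ^ j - LinearMap.trace R V (B ^ j) • a ^ j + LinearMap.det (B ^ j) • (1 : E)
      = 0 := by
  rw [g3a_end_trace_pow bs, map_pow]
  exact g3a_pow_quadratic a _ _ h j

end Rank2

end Fermat.Agent.R38
end MergeWrap_R38_G_FrobRelCore

section MergeWrap_R38_G_FrobRelJ -- from R38/G/FrobRelJ.lean

/-!
# Row 38, block G, seat G3a: the `J₀(N)` side of the Frobenius relation (helper14)

* `g3aEig N p W S`: the eigenspace of `ℓ ↦ a_ℓ(W)` in `J₀(N)(ℚ̄)[p]` (no newness condition);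
* `g3aEig_quad_pow`: the Eichler–Shimura relation `τ² - a_ℓ τ + ℓ = 0` on it for a Frobenius
  `τ`, and its consequence for the powers of `τ`;
* `g3aKerJ N p`: the open normal subgroup of `G_ℚ` acting trivially on `J₀(N)(ℚ̄)[p]`.
-/

set_option autoImplicit false
set_option linter.style.haveILetI false
set_option linter.unusedSectionVars false

noncomputable section

namespace Fermat.Agent.R38

open ModularCurve AlgebraicCurve
open Fermat.Agent.F3 (GQ)

local notation "Qb" => AlgebraicClosure ℚ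

section Aux

variable {M : Type*} [AddCommGroup M]

theorem g3a_nsmul_zsmul (p : ℕ) (c : ℤ) (a : M) : p • (c • a) = c • (p • a) := by
  rw [← natCast_zsmul, ← natCast_zsmul, smul_comm]

theorem g3a_zsmul_zsmul (c d : ℤ) (a : M) : c • (d • a) = d • (c • a) :=
  smul_comm c d a

/-- Abstract form of the power relation on an invariant submodule. -/
theorem g3a_submodule_quad_pow (E : Submodule ℤ M) (f : M →ₗ[ℤ] M)
    (hf : ∀ y ∈ E, f y ∈ E) (a d : ℤ)
    (h : ∀ y ∈ E, f (f y) - a • f y + d • y = 0) (j : ℕ) :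
    ∀ y ∈ E, (f ^ j) ((f ^ j) y) - g3aLucas a d j • (f ^ j) y + d ^ j • y = 0 := by
  intro y hy
  have hrel : f.restrict hf * f.restrict hf - a • f.restrict hf
      + d • (1 : Module.End ℤ E) = 0 := by
    refine LinearMap.ext fun z => Subtype.ext ?_
    simpa using h z z.2
  have hp := g3a_pow_quadratic (f.restrict hf) a d hrel j
  have hpow : ∀ z : E, (((f.restrict hf) ^ j) z : M) = (f ^ j) z := by
    intro z
    rw [Module.End.pow_restrict j hf]
    rfl
  have h2 := congrArg (fun g : Module.End ℤ E => ((g ⟨y, hy⟩ : E) : M)) hp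
  simp only [LinearMap.add_apply, LinearMap.sub_apply, LinearMap.smul_apply,
    Module.End.mul_apply, Module.End.one_apply, LinearMap.zero_apply, Submodule.coe_add,
    Submodule.coe_sub, Submodule.coe_smul, Submodule.coe_zero, hpow] at h2
  exact h2

end Aux

section Eig

variable (N : ℕ) [NeZero N] (p : ℕ) (W : WeierstrassCurve ℤ) (S : Finset ℕ)

/-- The eigenspace of `ℓ ↦ a_ℓ(W)` in `J₀(N)(ℚ̄)[p]`. -/
def g3aEig : Submodule ℤ (JZero N) where
  carrier := {y | p • y = 0 ∧ ∀ ℓ : Nat.Primes, (ℓ : ℕ) ∉ S → ¬ (ℓ : ℕ) ∣ N →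
      heckeOperatorBar N ℓ y = (W.apOfModel ℓ : ℤ) • y}
  zero_mem' := ⟨smul_zero _, fun ℓ _ _ => by rw [map_zero, smul_zero]⟩
  add_mem' := by
    rintro a b ⟨ha1, ha3⟩ ⟨hb1, hb3⟩
    exact ⟨by rw [nsmul_add, ha1, hb1, add_zero],
      fun ℓ h1 h2 => by rw [map_add, ha3 ℓ h1 h2, hb3 ℓ h1 h2, zsmul_add]⟩
  smul_mem' := by
    rintro c a ⟨ha1, ha3⟩
    exact ⟨by rw [g3a_nsmul_zsmul, ha1, zsmul_zero],
      fun ℓ h1 h2 => by
        rw [LinearMap.map_smul, ha3 ℓ h1 h2]; exact g3a_zsmul_zsmul _ _ _⟩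

variable {N p W S}

theorem mem_g3aEig {y : JZero N} :
    y ∈ g3aEig N p W S ↔ p • y = 0 ∧ ∀ ℓ : Nat.Primes, (ℓ : ℕ) ∉ S → ¬ (ℓ : ℕ) ∣ N →
      heckeOperatorBar N ℓ y = (W.apOfModel ℓ : ℤ) • y := Iff.rfl

theorem g3a_gal_nsmul (σ : GQ) (n : ℕ) (y : JZero N) : σ • (n • y) = n • (σ • y) :=
  map_nsmul (DistribSMul.toAddMonoidHom (JZero N) σ) n y

theorem g3a_gal_zsmul (σ : GQ) (n : ℤ) (y : JZero N) : σ • (n • y) = n • (σ • y) :=
  map_zsmul (DistribSMul.toAddMonoidHom (JZero N) σ) n y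

theorem g3a_gal_zero (σ : GQ) : σ • (0 : JZero N) = 0 :=
  map_zero (DistribSMul.toAddMonoidHom (JZero N) σ)

/-- The eigenspace is Galois-stable. -/
theorem g3aEig_smul (hC : Fermat.Agent.F3.HeckeGaloisComm N) (σ : GQ) {y : JZero N}
    (hy : y ∈ g3aEig N p W S) : σ • y ∈ g3aEig N p W S := by
  obtain ⟨h1, h3⟩ := hy
  refine ⟨?_, fun ℓ hℓS hℓN => ?_⟩
  · rw [← g3a_gal_nsmul, h1]
    exact g3a_gal_zero σ
  · rw [hC ℓ σ y, h3 ℓ hℓS hℓN, g3a_gal_zsmul]

/-- `(galLin τ)^j = galLin (τ^j)` pointwise. -/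
theorem g3a_galLin_pow_apply (τ : GQ) (j : ℕ) (y : JZero N) :
    (Fermat.Agent.F3.galLin N τ ^ j) y = τ ^ j • y := by
  induction j generalizing y with
  | zero => rw [pow_zero, pow_zero, one_smul]; rfl
  | succ j ih =>
    rw [pow_succ, Module.End.mul_apply, ih, pow_succ, mul_smul]
    rfl

/-- The Eichler–Shimura relation on the eigenspace, for a Frobenius element at a prime
`ℓ ∉ S`, `ℓ ∤ N p`, and its powers: for `y` in the eigenspace,
`τ^j τ^j y - V_j(a_ℓ, ℓ) τ^j y + ℓ^j y = 0`. -/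
theorem g3aEig_quad_pow (hC : Fermat.Agent.F3.HeckeGaloisComm N)
    (hQ : Fermat.Agent.F3.TorsionFrobQuadratic N) {ℓ : ℕ} (hℓ : ℓ.Prime) (hℓS : ℓ ∉ S)
    (hℓN : ¬ ℓ ∣ N) (hℓNp : ¬ ℓ ∣ N * p)
    (A : ValuationSubring Qb) (hA : A.LiesOverPrime ℓ) (τ : GQ) (hτ : A.IsFrobeniusAt τ ℓ)
    (j : ℕ) {y : JZero N} (hy : y ∈ g3aEig N p W S) :
    τ ^ j • τ ^ j • y - g3aLucas (W.apOfModel ℓ : ℤ) (ℓ : ℤ) j • τ ^ j • y
      + (ℓ : ℤ) ^ j • y = 0 := by
  have hrel : ∀ z ∈ g3aEig N p W S,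
      Fermat.Agent.F3.galLin N τ (Fermat.Agent.F3.galLin N τ z)
        - (W.apOfModel ℓ : ℤ) • Fermat.Agent.F3.galLin N τ z + (ℓ : ℤ) • z = 0 := by
    intro z hz
    have h := hQ p ℓ hℓ hℓNp A hA τ hτ z hz.1
    have hz' : τ • z ∈ g3aEig N p W S := g3aEig_smul hC τ hz
    rw [hz'.2 ⟨ℓ, hℓ⟩ hℓS hℓN, ← natCast_zsmul] at h
    exact h
  have key := g3a_submodule_quad_pow (g3aEig N p W S) (Fermat.Agent.F3.galLin N τ)
    (fun z hz => g3aEig_smul hC τ hz) (W.apOfModel ℓ : ℤ) (ℓ : ℤ) hrel j y hy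
  rw [g3a_galLin_pow_apply, g3a_galLin_pow_apply] at key
  exact key

end Eig

section Ker

variable (N : ℕ) [NeZero N] (p : ℕ)

/-- The subgroup of `G_ℚ` acting trivially on `J₀(N)(ℚ̄)[p]`. -/
def g3aKerJ : Subgroup GQ where
  carrier := {σ | ∀ x : JZero N, p • x = 0 → σ • x = x}
  one_mem' := fun x _ => one_smul _ x
  mul_mem' := fun {a b} ha hb x hx => by rw [mul_smul, hb x hx, ha x hx]
  inv_mem' := fun {a} ha x hx => by
    rw [inv_smul_eq_iff, ha x hx]

variable {N p}

theorem mem_g3aKerJ {σ : GQ} :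
    σ ∈ g3aKerJ N p ↔ ∀ x : JZero N, p • x = 0 → σ • x = x := Iff.rfl

instance g3aKerJ_normal : (g3aKerJ N p).Normal :=
  ⟨fun σ hσ g x hx => by
    have hx' : p • (g⁻¹ • x) = 0 := by
      rw [← g3a_gal_nsmul, hx]
      exact g3a_gal_zero _
    rw [mul_smul, mul_smul, hσ _ hx', smul_inv_smul]⟩

theorem g3aKerJ_isOpen (hF : Fermat.Agent.F3.TorsionFinite N)
    (hO : Fermat.Agent.F3.TorsionOpenStab N) (hp : 0 < p) :
    IsOpen (g3aKerJ N p : Set GQ) := by
  have hset : (g3aKerJ N p : Set GQ)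
      = ⋂ x ∈ {x : JZero N | p • x = 0}, {σ : GQ | σ • x = x} := by
    ext σ
    simp only [SetLike.mem_coe, mem_g3aKerJ, Set.mem_ofPred_eq, Set.mem_iInter]
  rw [hset]
  refine (hF p hp).isOpen_biInter fun x hx => ?_
  obtain ⟨L, hL, hfix⟩ := hO p hp x hx
  haveI : FiniteDimensional ℚ L := hL
  have hopen : IsOpen (L.fixingSubgroup : Set GQ) := L.fixingSubgroup_isOpen
  have hle : L.fixingSubgroup ≤ MulAction.stabilizer GQ x := by
    intro σ hσ
    rw [MulAction.mem_stabilizer_iff]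
    exact hfix σ fun y hy => (IntermediateField.mem_fixingSubgroup_iff L σ).mp hσ y hy
  have h2 : {σ : GQ | σ • x = x} = (MulAction.stabilizer GQ x : Set GQ) :=
    Set.ext fun σ => Iff.rfl
  rw [h2]
  exact Subgroup.isOpen_mono hle hopen

end Ker

/-- Integers congruent modulo `n` act in the same way on an element killed by `n`. -/
theorem g3a_zsmul_congr {M : Type*} [AddCommGroup M] {n : ℕ} {a b : ℤ}
    (h : (a : ZMod n) = (b : ZMod n)) {z : M} (hz : n • z = 0) : a • z = b • z := by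
  obtain ⟨c, hc⟩ := (ZMod.intCast_eq_intCast_iff_dvd_sub a b n).mp h
  have : b = a + (n : ℤ) * c := by rw [← hc]; ring
  rw [this, add_zsmul, mul_comm, mul_zsmul, natCast_zsmul, hz, zsmul_zero, add_zero]

end Fermat.Agent.R38
end
end MergeWrap_R38_G_FrobRelJ

section MergeWrap_R38_G_FrobRel -- from R38/G/FrobRel.lean

/-!
# Row 38, block G, seat G3a: the Frobenius relation on the eigenspace (helper14)

`W / ℤ` a Weierstrass model, `E₀ = W_ℚ`, `p` a prime, `S` a finite set of primes containing the bad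
primes of `W`.  For `y ∈ J₀(N)(ℚ̄)[p]` with `T_ℓ y = a_ℓ(W) y` for all primes `ℓ ∉ S`, `ℓ ∤ N`, and
EVERY `σ ∈ G_ℚ`:

  `σ² y - tr(ρ_{E₀,p} σ) σ y + det(ρ_{E₀,p} σ) y = 0`

(`g3a_frobRel_of`; the trace and the determinant are given by arbitrary integer lifts).

Proof: Frobenius density gives a Frobenius element `τ` at a good prime `ℓ ∉ S ∪ {p}`, `ℓ ∤ N`, and
`j` with `σ = τ^j` on `E₀[p]` and on `J₀(N)[p]`; Eichler–Shimura on `J₀(N)[p]` and the eigen-property
give `τ² - a_ℓ τ + ℓ = 0` on the eigenspace, `tr(ρ τ) = a_ℓ`, `det(ρ τ) = ℓ` (Lib/FrobTrace), and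
the relation passes to the powers (`FrobRelCore.lean`).

The four interface propositions of cluster A/B are hypotheses here; they are plugged in in
`FrobRelFinal.lean`.
-/

set_option autoImplicit false
set_option linter.style.haveILetI false
set_option linter.unusedSectionVars false

noncomputable section

open WeierstrassCurve WeierstrassCurve.Affine WeierstrassCurve.Affine.Point

namespace Fermat.Agent.R38

open ModularCurve AlgebraicCurve
open Fermat.Agent.F3 (GQ)

local notation "Qb" => AlgebraicClosure ℚ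

section ESide

variable (W : WeierstrassCurve ℤ) {p : ℕ} [Fact p.Prime] [DecidableEq Qb]

/-- A basis of `E₀[p^m]` over `ZMod (p^m)`. -/
theorem g3a_exists_basis (hΔ : W.Δ ≠ 0) (m : ℕ) :
    Nonempty (Module.Basis (Fin 2) (ZMod (p ^ m))
      (Submodule.torsionBy ℤ ((W.map (Int.castRingHom ℚ))⁄Qb).Point ((p ^ m : ℕ) : ℤ))) := by
  have hpprime : p.Prime := Fact.out
  have hΔ' : ((W.map (Int.castRingHom ℚ))⁄Qb).Δ ≠ 0 := by
    change ((W.map (Int.castRingHom ℚ)).map (algebraMap ℚ Qb)).Δ ≠ 0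
    rw [WeierstrassCurve.map_Δ, WeierstrassCurve.map_Δ]
    simpa using hΔ
  have hcard1 : Nat.card (Submodule.torsionBy ℤ
      ((W.map (Int.castRingHom ℚ))⁄Qb).Point ((p ^ 1 : ℕ) : ℤ)) = p ^ (2 * 1) := by
    rw [Fermat.Agent.Torsion.card_torsionBy hΔ' (n := p ^ 1) (Nat.one_le_pow _ _ hpprime.pos)]
    ring
  have hdiv : ∀ x : ((W.map (Int.castRingHom ℚ))⁄Qb).Point,
      (∃ n : ℕ, (p : ℤ) ^ n • x = 0) → ∃ y, (p : ℤ) • y = x := by
    intro x _
    obtain ⟨y, hy⟩ := Fermat.Agent.Torsion.smul_surjective hΔ' (n := p) hpprime.one_lt.le x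
    exact ⟨y, by rw [natCast_zsmul]; exact hy⟩
  exact Fermat.Agent.FrobTrace.exists_basis_torsionBy
    (G := ((W.map (Int.castRingHom ℚ))⁄Qb).Point) p hcard1 hdiv m

/-- Trace and determinant on `E₀[p^m]` of an element acting as the `j`-th power of a Frobenius
element at a good prime `ℓ ≠ p`. -/
theorem g3a_trace_det_of_pow (hΔ : W.Δ ≠ 0) {ℓ : ℕ} [Fact ℓ.Prime] (hℓp : ℓ ≠ p)
    (hgood : W.IsGoodPrimeFor ℓ) (A : ValuationSubring Qb) (hA : A.LiesOverPrime ℓ)
    (τ : GQ) (hτ : A.IsFrobeniusAt τ ℓ) (m j : ℕ) (σ : GQ)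
    (hσ : galoisRepModuleEnd ℚ (K := Qb) (W.map (Int.castRingHom ℚ)) (p ^ m) σ
      = galoisRepModuleEnd ℚ (K := Qb) (W.map (Int.castRingHom ℚ)) (p ^ m) τ ^ j) :
    galoisTrace ℚ (W.map (Int.castRingHom ℚ)) (p ^ m) σ
        = ((g3aLucas (W.apOfModel ℓ : ℤ) (ℓ : ℤ) j : ℤ) : ZMod (p ^ m)) ∧
      LinearMap.det (galoisRepModuleEnd ℚ (K := Qb) (W.map (Int.castRingHom ℚ)) (p ^ m) σ)
        = (((ℓ : ℤ) ^ j : ℤ) : ZMod (p ^ m)) := by
  obtain ⟨bs⟩ := g3a_exists_basis W hΔ (p := p) m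
  obtain ⟨htr, hdet⟩ :=
    Fermat.Agent.FrobTrace.galois_trace_det_frobenius_all W hℓp hgood A hA τ hτ m
  rw [galoisTrace_def] at htr ⊢
  constructor
  · rw [hσ, g3a_end_trace_pow bs, htr, hdet]
    exact (g3aLucas_map (Int.castRingHom (ZMod (p ^ m))) _ _ j).symm
  · rw [hσ, map_pow, hdet, Int.cast_pow]

end ESide

section Main

variable (N : ℕ) [NeZero N] {p : ℕ} [Fact p.Prime] (W : WeierstrassCurve ℤ) (S : Finset ℕ)
  [DecidableEq Qb]

theorem g3a_disc_ne_zero (hgood : ∀ ℓ : ℕ, ℓ.Prime → ℓ ∉ S → W.IsGoodPrimeFor ℓ) :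
    W.Δ ≠ 0 := by
  obtain ⟨q, hq1, hq2⟩ := Nat.exists_infinite_primes (S.sup id + 1)
  have hqS : q ∉ S := fun h => by
    have := Finset.le_sup (f := id) h
    simp only [id] at this
    omega
  intro h0
  exact hgood q hq2 hqS (by rw [h0]; exact dvd_zero _)

/-- The Frobenius relation, at level `p ^ 1`. -/
theorem g3a_frobRel_pow (hF : Fermat.Agent.F3.TorsionFinite N)
    (hO : Fermat.Agent.F3.TorsionOpenStab N) (hC : Fermat.Agent.F3.HeckeGaloisComm N)
    (hQ : Fermat.Agent.F3.TorsionFrobQuadratic N)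
    (hgood : ∀ ℓ : ℕ, ℓ.Prime → ℓ ∉ S → W.IsGoodPrimeFor ℓ)
    (σ : GQ) (T' D' : ℤ)
    (hT' : (T' : ZMod (p ^ 1)) = galoisTrace ℚ (W.map (Int.castRingHom ℚ)) (p ^ 1) σ)
    (hD' : (D' : ZMod (p ^ 1)) = LinearMap.det
      (galoisRepModuleEnd ℚ (K := Qb) (W.map (Int.castRingHom ℚ)) (p ^ 1) σ))
    {y : JZero N} (hy : y ∈ g3aEig N p W S) :
    σ • σ • y - T' • σ • y + D' • y = 0 := by
  have hp : p.Prime := Fact.out
  have hΔ := g3a_disc_ne_zero W S hgood
  haveI := Fermat.Agent.FrobTrace.finite_torsionBy_pow W hΔ (p := p) 1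
  -- the open normal subgroup
  let ρ := galoisRepModuleEnd ℚ (K := Qb) (W.map (Int.castRingHom ℚ)) (p ^ 1)
  let U : Subgroup GQ := ρ.ker ⊓ g3aKerJ N p
  haveI : U.Normal := Subgroup.normal_inf_normal _ _
  have hU : IsOpen (U : Set GQ) := by
    have h1 : IsOpen {σ : GQ | ρ σ = 1} :=
      Fermat.Agent.FrobTrace.isOpen_galoisRepModuleEnd_eq_one _ _
    have h2 := g3aKerJ_isOpen (N := N) (p := p) hF hO hp.pos
    have : (U : Set GQ) = {σ : GQ | ρ σ = 1} ∩ (g3aKerJ N p : Set GQ) := by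
      ext σ
      show σ ∈ ρ.ker ⊓ g3aKerJ N p ↔ _
      rw [Subgroup.mem_inf, MonoidHom.mem_ker]
      rfl
    rw [this]
    exact h1.inter h2
  obtain ⟨ℓ, A, τ, k, j, hℓ, hℓS', hA, hτ, -, hj⟩ :=
    Fermat.Agent.FrobDensity.frobenius_density_open U hU σ (S ∪ {p} ∪ N.primeFactors)
  haveI : Fact ℓ.Prime := ⟨hℓ⟩
  have hℓS : ℓ ∉ S := fun h => hℓS' (by simp [h])
  have hℓp : ℓ ≠ p := fun h => hℓS' (by simp [h])
  have hℓN : ¬ ℓ ∣ N := fun h => hℓS' (by
    simp only [Finset.mem_union, Nat.mem_primeFactors]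
    exact Or.inr ⟨hℓ, h, NeZero.ne N⟩)
  have hℓNp : ¬ ℓ ∣ N * p := fun h => by
    rcases (Nat.Prime.dvd_mul hℓ).mp h with h1 | h1
    · exact hℓN h1
    · exact hℓp ((Nat.prime_dvd_prime_iff_eq hℓ hp).mp h1)
  obtain ⟨hjE, hjJ⟩ := Subgroup.mem_inf.mp hj
  -- the `E₀`-side
  have hσρ : ρ σ = ρ τ ^ j := by
    have h3 : ρ σ * ρ (σ⁻¹ * τ ^ j) = ρ τ ^ j := by
      rw [← map_mul, mul_inv_cancel_left, map_pow]
    rw [MonoidHom.mem_ker.mp hjE, mul_one] at h3
    exact h3
  obtain ⟨htr, hdet⟩ := g3a_trace_det_of_pow W hΔ hℓp (hgood ℓ hℓ hℓS) A hA τ hτ 1 j σ hσρ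
  -- the `J₀(N)`-side
  have hτσ : ∀ x : JZero N, p • x = 0 → τ ^ j • x = σ • x := by
    intro x hx
    have h3 := mem_g3aKerJ.mp hjJ x hx
    rw [mul_smul, inv_smul_eq_iff] at h3
    exact h3
  have key := g3aEig_quad_pow hC hQ hℓ hℓS hℓN hℓNp A hA τ hτ j hy
  have hσy : σ • y ∈ g3aEig N p W S := g3aEig_smul hC σ hy
  rw [hτσ y hy.1, hτσ (σ • y) hσy.1] at key
  -- the coefficients
  have hpy : (p ^ 1) • y = 0 := by rw [pow_one]; exact hy.1
  have hpσy : (p ^ 1) • (σ • y) = 0 := by rw [pow_one]; exact hσy.1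
  rw [g3a_zsmul_congr (n := p ^ 1) (hT'.trans htr) hpσy,
    g3a_zsmul_congr (n := p ^ 1) (hD'.trans hdet) hpy]
  exact key

/-- **G3a, conditional form**: the Frobenius relation on the eigenspace, for every `σ ∈ G_ℚ` and
arbitrary integer lifts `T'`, `D'` of the trace and the determinant of `σ` on `E₀[p]`. -/
theorem g3a_frobRel_of (hF : Fermat.Agent.F3.TorsionFinite N)
    (hO : Fermat.Agent.F3.TorsionOpenStab N) (hC : Fermat.Agent.F3.HeckeGaloisComm N)
    (hQ : Fermat.Agent.F3.TorsionFrobQuadratic N)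
    (hgood : ∀ ℓ : ℕ, ℓ.Prime → ℓ ∉ S → W.IsGoodPrimeFor ℓ)
    (σ : GQ) (T' D' : ℤ)
    (hT' : (T' : ZMod p) = galoisTrace ℚ (W.map (Int.castRingHom ℚ)) p σ)
    (hD' : (D' : ZMod p) = LinearMap.det
      (galoisRepModuleEnd ℚ (K := Qb) (W.map (Int.castRingHom ℚ)) p σ))
    {y : JZero N} (hy : y ∈ g3aEig N p W S) :
    σ • σ • y - T' • σ • y + D' • y = 0 := by
  have key : ∀ n : ℕ, n = p ^ 1 →
      (T' : ZMod n) = galoisTrace ℚ (W.map (Int.castRingHom ℚ)) n σ →
      (D' : ZMod n) = LinearMap.det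
        (galoisRepModuleEnd ℚ (K := Qb) (W.map (Int.castRingHom ℚ)) n σ) →
      σ • σ • y - T' • σ • y + D' • y = 0 := by
    intro n hn h1 h2
    subst hn
    exact g3a_frobRel_pow N W S hF hO hC hQ hgood σ T' D' h1 h2 hy
  exact key p (pow_one p).symm hT' hD'

end Main

end Fermat.Agent.R38
end
end MergeWrap_R38_G_FrobRel

section MergeWrap_R38_G_FrobRelFinal -- from R38/G/FrobRelFinal.lean

/-!
# Row 38, block G, seat G3a: the Frobenius relation, unconditional (helper14)

`g3a_frobRel`: for `y ∈ J₀(N)(ℚ̄)` with `p y = 0` and `T_ℓ y = a_ℓ(W) y` for all primes `ℓ ∉ S`,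
`ℓ ∤ N` (`S` ⊇ bad primes of `W`), every `σ ∈ G_ℚ` and all integer lifts `T'`, `D'` of the trace
and the determinant of `σ` on `E₀[p]`, `E₀ = W_ℚ`:  `σ σ y - T' σ y + D' y = 0`.
-/

set_option autoImplicit false
set_option linter.style.haveILetI false
set_option linter.unusedSectionVars false

noncomputable section

open WeierstrassCurve WeierstrassCurve.Affine WeierstrassCurve.Affine.Point

namespace Fermat.Agent.R38

open ModularCurve AlgebraicCurve
open Fermat.Agent.F3 (GQ)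

local notation "Qb" => AlgebraicClosure ℚ

/-- Eichler–Shimura on the torsion of `J₀(N)`, unconditional. -/
theorem g3a_torsionFrobQuadratic (N : ℕ) [NeZero N] : Fermat.Agent.F3.TorsionFrobQuadratic N :=
  Fermat.Agent.GaussIntFP.torsionFrobQuadratic_of_keyLemmaAt
    (Fermat.Agent.GaussInt.keyLemmaAt_all N)
    (fun q => by
      haveI : NeZero (q : ℕ) := ⟨q.2.ne_zero⟩
      exact Fermat.Agent.HeckeInputs.hi_heckeInputsAlong_Qbar N q)

/-- **G3a**: the Frobenius relation on the eigenspace of `ℓ ↦ a_ℓ(W)` in `J₀(N)(ℚ̄)[p]`. -/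
theorem g3a_frobRel (N : ℕ) [NeZero N] {p : ℕ} [Fact p.Prime] (W : WeierstrassCurve ℤ)
    (S : Finset ℕ) [DecidableEq Qb]
    (hgood : ∀ ℓ : ℕ, ℓ.Prime → ℓ ∉ S → W.IsGoodPrimeFor ℓ)
    (σ : GQ) (T' D' : ℤ)
    (hT' : (T' : ZMod p) = galoisTrace ℚ (W.map (Int.castRingHom ℚ)) p σ)
    (hD' : (D' : ZMod p) = LinearMap.det
      (galoisRepModuleEnd ℚ (K := Qb) (W.map (Int.castRingHom ℚ)) p σ))
    {y : JZero N} (hy1 : p • y = 0)
    (hy3 : ∀ ℓ : Nat.Primes, (ℓ : ℕ) ∉ S → ¬ (ℓ : ℕ) ∣ N →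
      heckeOperatorBar N ℓ y = (W.apOfModel ℓ : ℤ) • y) :
    σ • σ • y - T' • σ • y + D' • y = 0 :=
  g3a_frobRel_of N W S (Fermat.Agent.F3TF.torsionFinite N) (Fermat.Agent.F3.torsionOpenStab N)
    (Fermat.Agent.F3G.heckeGaloisComm N) (g3a_torsionFrobQuadratic N) hgood σ T' D' hT' hD'
    (mem_g3aEig.mpr ⟨hy1, hy3⟩)

end Fermat.Agent.R38
end
end MergeWrap_R38_G_FrobRelFinal

section MergeWrap_R38_G_JG3At -- from R38/G/JG3At.lean

set_option autoImplicit false
set_option linter.style.haveILetI false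
set_option linter.unusedSectionVars false

noncomputable section

open WeierstrassCurve WeierstrassCurve.Affine WeierstrassCurve.Affine.Point

namespace Fermat.Agent.R38

open ModularCurve AlgebraicCurve
open Fermat.Agent.AtkinLehner (ALData)

local notation "Qb" => (AlgebraicClosure ℚ)
local notation "GQ" => (AlgebraicClosure ℚ ≃ₐ[ℚ] AlgebraicClosure ℚ)

/-- **J-G3**, unfolded. -/
theorem jg3_at (P : FreyPackage) (D : ALData) [NeZero D.Q] [NeZero D.R] [NeZero (D.Q * D.R)]
    (hQ : D.Q = P.p)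
    (hirr : GaloisRepIsIrreducible (K := AlgebraicClosure ℚ) ℚ P.freyCurve P.p)
    (W : WeierstrassCurve ℤ) (S : Finset ℕ) (hW : W.IsIntegralModelOf P.freyCurve)
    (hSbad : ∀ ℓ : ℕ, ℓ.Prime → ¬ W.IsGoodPrimeFor ℓ → ℓ ∈ S)
    (hy : ∃ y : JZero (D.Q * D.R), y ≠ 0 ∧
      y ∈ newEigenAt (mul_comm D.Q D.R) D rfl S (fun ℓ => W.apOfModel ℓ)) :
    ∃ θ : ↥(Submodule.torsionBy ℤ ((P.freyCurveInt.map (Int.castRingHom ℚ))⁄Qb).Point
        ((P.p : ℕ) : ℤ)) →+ JZero (D.Q * D.R),
      Function.Injective θ ∧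
      (∀ (σ : GQ) (x : ↥(Submodule.torsionBy ℤ
        ((P.freyCurveInt.map (Int.castRingHom ℚ))⁄Qb).Point ((P.p : ℕ) : ℤ))),
          θ (σ • x) = σ • θ x) ∧
      ∀ x, θ x ∈ newEigenAt (mul_comm D.Q D.R) D rfl S (fun ℓ => W.apOfModel ℓ) := by
  haveI : Fact P.p.Prime := ⟨P.pp⟩
  have hE : P.freyCurveInt.map (Int.castRingHom ℚ) = P.freyCurve :=
    Fermat.Agent.FreyLib.freyCurveInt_map P
  have hW' : W.IsIntegralModelOf (P.freyCurveInt.map (Int.castRingHom ℚ)) := by
    rw [hE]; exact hW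
  have hirr' : GaloisRepIsIrreducible (K := AlgebraicClosure ℚ) ℚ
      (P.freyCurveInt.map (Int.castRingHom ℚ)).toAffine P.p := by
    rw [hE]; exact hirr
  have hΔ : W.Δ ≠ 0 := frey_model_Δ_ne_zero P hW
  have hp2 : P.p ≠ 2 := by
    have := P.hp5
    omega
  obtain ⟨y, hy0, hyV⟩ := hy
  refine blr_embed_addSubgroup_of_model_forall (P.freyCurveInt.map (Int.castRingHom ℚ)) W P.p
    hΔ hW' hp2 hirr' (newEigenAt (mul_comm D.Q D.R) D rfl S (fun ℓ => W.apOfModel ℓ))
    ?_ ?_ ⟨y, hyV, hy0⟩ ?_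
  · intro x hx
    have h1 : D.Q • x = 0 := hx.1
    rw [← hQ]
    exact h1
  · intro g x hx
    exact smul_mem_newEigenAt (Fermat.Agent.F3G.heckeGaloisComm (D.Q * D.R)) g hx
  · intro g t d ht hd x hx
    have h1 : D.Q • x = 0 := hx.1
    exact g3a_frobRel (D.Q * D.R) W S
      (fun ℓ hℓ hℓS => by_contra fun h => hℓS (hSbad ℓ hℓ h)) g t d ht hd
      (by rw [← hQ]; exact h1) hx.2.2.2

end Fermat.Agent.R38
end
end MergeWrap_R38_G_JG3At

section MergeWrap_R38_G_SpJG3 -- from R38/G/SpJG3.lean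

set_option autoImplicit false
set_option linter.style.haveILetI false
set_option linter.unusedSectionVars false

noncomputable section

namespace Fermat.Agent.R38

/-- **J-G3**. -/
theorem spJG3 : SpJG3 := by
  intro P D _ _ _ hQ _ _ hirr W S hW hS hy
  obtain ⟨θ, h1, h2, h3⟩ := jg3_at P D hQ hirr W S hW hS.2.2 hy
  exact ⟨θ, h1, h2, h3⟩

end Fermat.Agent.R38
end
end MergeWrap_R38_G_SpJG3
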